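import Fermat.Agent.PadicDirichletL.LogValue
import Fermat.Agent.Root.SummaryCyclotomicUnits

/-!
# The value of the branch `0` at `0` for an even character does not vanish

By Brumer's theorem the linear relations between the `log (1 - ψ(a))` come from multiplicative
ones, so they hold for the `log |1 - e^(2 π i a / f)|`; but `∑ θ(a) log |1 - e^(2 π i a / f)|` is,
up to a factor, `L(1, θ⁻¹) ≠ 0`.
-/

set_option autoImplicit false
set_option linter.unusedSectionVars false
set_option linter.style.haveILetI false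

noncomputable section

open Finset FA.Brumer
open FA.GrossRegulator (iwasawaLog)
open scoped Classical

namespace FA.PadicDirichletL

variable {f : ℕ} [NeZero f]

theorem sum_units_mul {R : Type*} [CommRing R] (χ : DirichletCharacter R f) (F : ZMod f → R) :
    ∑ u : (ZMod f)ˣ, χ u * F u = ∑ a : ZMod f, χ a * F a :=
  Fintype.sum_of_injective _ Units.val_injective _ _
    (fun a ha => by rw [χ.map_nonunit fun h => ha ⟨h.unit, h.unit_spec⟩, zero_mul]) fun _ => rfl

/-- Every primitive additive character is a twist of the standard one. -/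
theorem exists_stdAddChar_eq {ψ : AddChar (ZMod f) ℂ} (hψ : ψ.IsPrimitive) :
    ∃ k : (ZMod f)ˣ, ∀ a, ψ a = ZMod.stdAddChar ((k : ZMod f) * a) := by
  have h1f : ψ 1 ^ f = 1 := by
    rw [← AddChar.map_nsmul_eq_pow, nsmul_eq_mul, ZMod.natCast_self, zero_mul,
      AddChar.map_zero_eq_one]
  have hroot : IsPrimitiveRoot (ZMod.stdAddChar (1 : ZMod f) : ℂ) f := by
    refine IsPrimitiveRoot.mk_of_lt _ (NeZero.pos f) (by
      rw [← AddChar.map_nsmul_eq_pow, nsmul_eq_mul, ZMod.natCast_self, zero_mul,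
        AddChar.map_zero_eq_one]) fun l hl0 hlf h => ?_
    rw [← AddChar.map_nsmul_eq_pow, nsmul_eq_mul, mul_one,
      ← AddChar.map_zero_eq_one (ZMod.stdAddChar (N := f))] at h
    have h2 := congrArg ZMod.val (ZMod.injective_stdAddChar h)
    rw [ZMod.val_natCast_of_lt hlf, ZMod.val_zero] at h2
    omega
  obtain ⟨k, -, hk⟩ := hroot.eq_pow_of_pow_eq_one h1f
  have hψk : ∀ a, ψ a = ZMod.stdAddChar ((k : ZMod f) * a) := fun a => by
    rw [← ZMod.natCast_zmod_val a, show (a.val : ZMod f) = a.val • (1 : ZMod f) by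
      rw [nsmul_eq_mul, mul_one], AddChar.map_nsmul_eq_pow, ← hk, ← pow_mul,
      ← AddChar.map_nsmul_eq_pow]
    simp [nsmul_eq_mul]
  have hku : IsUnit (k : ZMod f) := by
    by_contra hu
    obtain ⟨d, hd0, hd⟩ : ∃ d : ZMod f, d ≠ 0 ∧ (k : ZMod f) * d = 0 := by
      by_contra h
      push Not at h
      exact hu (IsUnit.of_mul_eq_one _ ((Finite.injective_iff_surjective.1
        ((injective_iff_map_eq_zero (AddMonoidHom.mulLeft (k : ZMod f))).2 fun d hd =>
          not_not.1 fun h' => h d h' hd)) 1).choose_spec)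
    refine hψ hd0 (DFunLike.ext _ _ fun x => ?_)
    rw [AddChar.mulShift_apply, hψk, ← mul_assoc, hd, zero_mul, AddChar.map_zero_eq_one,
      AddChar.one_apply]
  exact ⟨hku.unit, hψk⟩

/-- For even `θ` only the absolute values of the `1 - ζ^a` count. -/
theorem sum_mul_log_of_even {θ : DirichletCharacter ℂ f} (hev : θ.Even) :
    ∑ a, θ a * (Real.log ‖1 - ZMod.stdAddChar a‖ : ℂ) =
      ∑ a, θ a * Complex.log (1 - ZMod.stdAddChar (-a)) := by
  have hflip : ∑ a, θ a * Complex.log (1 - ZMod.stdAddChar a) =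
      ∑ a, θ a * Complex.log (1 - ZMod.stdAddChar (-a)) :=
    Fintype.sum_bijective (fun a : ZMod f => -a) neg_involutive.bijective _ _ fun a => by
      rw [neg_neg, hev.eval_neg]
  refine mul_left_cancel₀ (two_ne_zero (α := ℂ)) ?_
  conv_rhs => rw [two_mul]; arg 1; rw [← hflip]
  rw [← sum_add_distrib, mul_sum]
  refine sum_congr rfl fun a _ => ?_
  have hn : ‖(ZMod.stdAddChar a : ℂ)‖ = 1 :=
    (pow_eq_one_iff_of_nonneg (norm_nonneg _) (NeZero.ne f)).1 (by
      rw [← norm_pow, ← AddChar.map_nsmul_eq_pow, nsmul_eq_mul, ZMod.natCast_self, zero_mul,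
        AddChar.map_zero_eq_one, norm_one])
  set x : ℂ := 1 - ZMod.stdAddChar a
  have harg : x.arg ≠ Real.pi := fun h => by
    have h1 := (Complex.arg_eq_pi_iff.1 h).1
    have h2 := Complex.re_le_norm (ZMod.stdAddChar a : ℂ)
    simp only [x, Complex.sub_re, Complex.one_re] at h1
    linarith
  have hconj : 1 - (ZMod.stdAddChar (-a) : ℂ) = (starRingEnd ℂ) x := by
    rw [AddChar.map_neg_eq_conj, map_sub, map_one]
  rw [← mul_add, hconj, Complex.log_conj x harg, Complex.add_conj, Complex.log_re]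
  push_cast
  ring

/-- **`L(1, θ)` for even `θ`**, any primitive additive character. -/
theorem lFunction_one_even (hf : 1 < f) {θ : DirichletCharacter ℂ f} (hprim : θ.IsPrimitive)
    (hev : θ.Even) {ψ : AddChar (ZMod f) ℂ} (hψ : ψ.IsPrimitive) :
    DirichletCharacter.LFunction θ 1 =
      -(gaussSum θ ψ / (f : ℂ)) * ∑ a, θ⁻¹ a * (Real.log ‖1 - ψ a‖ : ℂ) := by
  have hev' : θ⁻¹.Even := by
    show θ⁻¹ (-1) = 1
    have h := congrArg (fun χ : DirichletCharacter ℂ f => χ (-1)) (inv_mul_cancel θ)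
    simp only [MulChar.mul_apply, MulChar.one_apply isUnit_one.neg] at h
    rwa [show θ (-1) = 1 from hev, mul_one] at h
  obtain ⟨k, hk⟩ := exists_stdAddChar_eq hψ
  have hgauss : θ (k : ZMod f) * gaussSum θ ψ = gaussSum θ (ZMod.stdAddChar (N := f)) := by
    rw [show ψ = (ZMod.stdAddChar (N := f)).mulShift (k : ZMod f) from
      DFunLike.ext _ _ fun a => (hk a).trans (AddChar.mulShift_apply).symm]
    exact gaussSum_mulShift θ _ k
  have hlog : θ⁻¹ (k : ZMod f) * ∑ a, θ⁻¹ a * (Real.log ‖1 - ψ a‖ : ℂ) =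
      ∑ a, θ⁻¹ a * (Real.log ‖1 - ZMod.stdAddChar a‖ : ℂ) := by
    rw [mul_sum]
    refine Fintype.sum_bijective (fun a => (k : ZMod f) * a) (Units.mulLeft_bijective k) _ _
      fun a => ?_
    rw [← mul_assoc, map_mul, hk]
  rw [FA.Summary.lFunction_one_closedForm hf hprim, ← sum_mul_log_of_even hev', ← hlog, ← hgauss,
    neg_mul, neg_mul, neg_inj, mul_div_assoc, mul_mul_mul_comm, ← MulChar.mul_apply, mul_inv_cancel,
    MulChar.one_apply k.isUnit, one_mul]

/-- `∑ θ(a) log |1 - ζ^a| ≠ 0` in the complex numbers. -/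
theorem sum_log_norm_ne_zero (hf : 1 < f) {θ : DirichletCharacter ℂ f} (hprim : θ.IsPrimitive)
    (hev : θ.Even) {ψ : AddChar (ZMod f) ℂ} (hψ : ψ.IsPrimitive) :
    ∑ a, θ a * (Real.log ‖1 - ψ a‖ : ℂ) ≠ 0 := fun h => by
  have hprim' : θ⁻¹.IsPrimitive := (DirichletCharacter.conductor_inv θ).trans hprim
  have hne : θ⁻¹ ≠ 1 := fun e => by
    rw [e, DirichletCharacter.isPrimitive_def,
      DirichletCharacter.conductor_one] at hprim'
    omega
  refine DirichletCharacter.LFunction_apply_one_ne_zero hne ?_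
  have hev' : θ⁻¹.Even := by
    show θ⁻¹ (-1) = 1
    have h := congrArg (fun χ : DirichletCharacter ℂ f => χ (-1)) (inv_mul_cancel θ)
    simp only [MulChar.mul_apply, MulChar.one_apply isUnit_one.neg] at h
    rwa [show θ (-1) = 1 from hev, mul_one] at h
  rw [lFunction_one_even hf hprim' hev' hψ, inv_inv, h, mul_zero]

variable {p : ℕ} [hp : Fact p.Prime]

/-- **`∑ θ(a) log_p (1 - ζ^a) ≠ 0` for even primitive `θ`.** -/
theorem sum_iwasawaLog_ne_zero (hfp : f.Coprime p) (hf : 1 < f)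
    {θ : DirichletCharacter ℂ_[p] f} (hprim : θ.IsPrimitive) (hev : θ.Even)
    {ψ : AddChar (ZMod f) ℂ_[p]} (hψ : ψ.IsPrimitive) :
    ∑ a, θ a * iwasawaLog p (1 - ψ a) ≠ 0 := fun hzero => by
  haveI : Fact (1 < f) := ⟨hf⟩
  haveI : Algebra.IsAlgebraic ℚ (algebraicClosure ℚ ℂ_[p]) := ⟨fun x => by
    obtain ⟨P, hP0, hP⟩ := mem_algebraicClosure_iff.1 x.2
    refine ⟨P, hP0, Subtype.ext ?_⟩
    show (algebraicClosure ℚ ℂ_[p]).val (Polynomial.aeval x P) = 0
    rw [← Polynomial.aeval_algHom_apply]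
    exact hP⟩
  have hθalg : ∀ a, IsAlgebraic ℚ (θ a) := fun a => by
    by_cases ha : IsUnit a
    · obtain ⟨u, rfl⟩ := ha
      refine (IsIntegral.of_pow (R := ℚ) (Nat.totient_pos.2 (NeZero.pos f)) ?_).isAlgebraic
      rw [← map_pow, ← Units.val_pow_eq_pow_val, ZMod.pow_totient, Units.val_one, map_one]
      exact isIntegral_one
    · rw [θ.map_nonunit ha]
      exact isAlgebraic_zero
  let θL : DirichletCharacter (algebraicClosure ℚ ℂ_[p]) f :=
    { toFun := fun x => ⟨θ x, mem_algebraicClosure_iff.2 (hθalg x)⟩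
      map_one' := Subtype.ext (map_one θ)
      map_mul' := fun x y => Subtype.ext (map_mul θ x y)
      map_nonunit' := fun x hx => Subtype.ext (θ.map_nonunit hx) }
  let ψL : AddChar (ZMod f) (algebraicClosure ℚ ℂ_[p]) :=
    { toFun := fun x => ⟨ψ x, mem_algebraicClosure_iff.2 (isAlgebraic_addChar ψ x)⟩
      map_zero_eq_one' := Subtype.ext (AddChar.map_zero_eq_one ψ)
      map_add_eq_mul' := fun x y => Subtype.ext (AddChar.map_add_eq_mul ψ x y) }
  let j : algebraicClosure ℚ ℂ_[p] →+* ℂ :=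
    (IsAlgClosed.lift : algebraicClosure ℚ ℂ_[p] →ₐ[ℚ] ℂ).toRingHom
  set θc : DirichletCharacter ℂ f := θL.ringHomComp j
  set ψc : AddChar (ZMod f) ℂ := j.toMonoidHom.compAddChar ψL
  have hψc : ψc.IsPrimitive := fun a ha h => hψ ha (DFunLike.ext _ _ fun x => by
    have h1 := DFunLike.congr_fun h x
    rw [AddChar.mulShift_apply, AddChar.one_apply] at h1 ⊢
    exact congrArg Subtype.val (j.injective (h1.trans (map_one j).symm)))
  have hevc : θc.Even := by
    show j (θL (-1)) = 1
    rw [show θL (-1) = 1 from Subtype.ext hev, map_one]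
  have hprimc : θc.IsPrimitive := by
    rw [DirichletCharacter.isPrimitive_def]
    refine Nat.dvd_antisymm θc.conductor_dvd_level ?_
    have hfac : θ.FactorsThrough θc.conductor := by
      refine (DirichletCharacter.factorsThrough_iff_ker_unitsMap θc.conductor_dvd_level).2
        fun u hu => MonoidHom.mem_ker.2 (Units.ext ?_)
      have h1 := congrArg Units.val (MonoidHom.mem_ker.1
        ((DirichletCharacter.factorsThrough_iff_ker_unitsMap θc.conductor_dvd_level).1
          θc.factorsThrough_conductor hu))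
      rw [MulChar.coe_toUnitHom, Units.val_one] at h1 ⊢
      exact congrArg Subtype.val (j.injective (h1.trans (map_one j).symm))
    have h1 := (DirichletCharacter.mem_conductorSet_iff_conductor_dvd θ
      θc.conductor_dvd_level).1 hfac
    rwa [(DirichletCharacter.isPrimitive_def θ).1 hprim] at h1
  -- the units `1 - ψ u`
  set x : (ZMod f)ˣ → ℂ_[p] := fun u => 1 - ψ u with hx
  set xL : (ZMod f)ˣ → algebraicClosure ℚ ℂ_[p] := fun u => 1 - ψL u
  have hxn : ∀ u, ‖x u‖ = 1 := fun u => by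
    simpa using norm_one_sub_mul hfp hψ u.ne_zero 1 0 (one_pow _)
  have hxalg : ∀ u, IsAlgebraic ℚ (x u) := fun u =>
    (isIntegral_one.sub (isAlgebraic_addChar ψ _).isIntegral).isAlgebraic
  choose α hα hdisc using fun u => exists_pow_disc (hxalg u) (hxn u)
  set A := ∏ u, α u with hAdef
  have hA : 0 < A := Finset.prod_pos fun u _ => hα u
  have hd : ∀ u, ‖x u ^ A - 1‖ ≤ rad p := fun u => by
    obtain ⟨k, hk⟩ := Finset.dvd_prod_of_mem α (mem_univ u)
    rw [hAdef, hk, pow_mul]
    exact (FA.GrossRegulator.plog_pow (hdisc u) k).1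
  set l := fun u => plog p (x u ^ A)
  have hrel : ∑ u : (ZMod f)ˣ, θ u * l u = 0 := by
    have h1 : ∑ u : (ZMod f)ˣ, θ u * (l u / (A : ℂ_[p])) = 0 := by
      rw [← hzero, ← sum_units_mul θ fun a => iwasawaLog p (1 - ψ a)]
      exact sum_congr rfl fun u _ => by rw [← iwasawaLog_of_pow hA (hd u)]
    simp only [← mul_div_assoc, ← sum_div, div_eq_zero_iff, Nat.cast_eq_zero, hA.ne', or_false]
      at h1
    exact h1
  obtain ⟨-, κ, _, a, c, hc, hcz⟩ := exists_relation_coeffs (p := p) l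
    (fun u => small_of_le (p := p) (norm_plog_le _))
    (fun u => by rw [pexp_plog (hd u)]; exact ((hxalg u).isIntegral.pow _).isAlgebraic)
    (fun u => θ u) (fun u => hθalg _) 0 isAlgebraic_zero hrel
  set T := fun u => Real.log ‖j (xL u)‖ with hT
  -- the relations pass to the absolute values
  have hbal : ∀ m : (ZMod f)ˣ → ℚ, ∑ u, (m u : ℂ_[p]) * l u = 0 →
      ∑ u, (m u : ℝ) * T u = 0 := fun m hm => by
    obtain ⟨D, hD⟩ := IsLocalization.exist_integer_multiples_of_finite (nonZeroDivisors ℤ) m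
    choose z hz using hD
    have hz' : ∀ u, (z u : ℚ) = ((D : ℤ) : ℚ) * m u := fun u => by
      simpa [zsmul_eq_mul] using hz u
    have hzl : ∑ u, ((z u).toNat : ℂ_[p]) * l u = ∑ u, ((-z u).toNat : ℂ_[p]) * l u := by
      rw [← sub_eq_zero, ← sum_sub_distrib]
      calc ∑ u, (((z u).toNat : ℂ_[p]) * l u - ((-z u).toNat : ℂ_[p]) * l u)
          = ((D : ℤ) : ℂ_[p]) * ∑ u, (m u : ℂ_[p]) * l u := by
            rw [mul_sum]
            refine sum_congr rfl fun u _ => ?_
            rw [← sub_mul, ← mul_assoc]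
            congr 1
            have h1 := congrArg (fun t : ℤ => (t : ℂ_[p])) (Int.toNat_sub_toNat_neg (z u))
            have h2 := congrArg (fun t : ℚ => (t : ℂ_[p])) (hz' u)
            push_cast at h1 h2
            rw [h1, h2]
        _ = 0 := by rw [hm, mul_zero]
    have hexp : ∀ e : (ZMod f)ˣ → ℕ, pexp (∑ u, (e u : ℂ_[p]) * l u) = ∏ u, (x u ^ A) ^ e u :=
      fun e => by
        have hs : ∀ u, Small p (l u) := fun u => small_of_le (p := p) (norm_plog_le _)
        rw [pexp_sum (p := p) fun u _ => (hs u).mul (IsUltrametricDist.norm_natCast_le_one _ _)]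
        exact prod_congr rfl fun u _ => by rw [pexp_nat_mul (hs u), pexp_plog (hd u)]
    have hprod : ∏ u, (xL u ^ A) ^ (z u).toNat = ∏ u, (xL u ^ A) ^ (-z u).toNat := by
      refine Subtype.ext ?_
      simp only [SubmonoidClass.coe_finsetProd, SubmonoidClass.coe_pow]
      exact ((hexp _).symm.trans (congrArg pexp hzl)).trans (hexp _)
    have hne : ∀ u, ‖j (xL u)‖ ≠ 0 := fun u =>
      norm_ne_zero_iff.2 ((map_ne_zero j).2 fun e => by
        have h1 := hxn u
        rw [show x u = 0 from congrArg Subtype.val e, norm_zero] at h1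
        exact zero_ne_one h1)
    have hlog := congrArg (fun y => Real.log ‖j y‖) hprod
    simp only [map_prod, map_pow, norm_prod, norm_pow] at hlog
    rw [Real.log_prod fun u _ => pow_ne_zero _ (pow_ne_zero _ (hne u)),
      Real.log_prod fun u _ => pow_ne_zero _ (pow_ne_zero _ (hne u))] at hlog
    simp only [Real.log_pow] at hlog
    have h0 : ((D : ℤ) : ℝ) * (A : ℝ) * ∑ u, (m u : ℝ) * T u = 0 := by
      rw [← sub_eq_zero, ← sum_sub_distrib] at hlog
      rw [← hlog, mul_sum]
      refine sum_congr rfl fun u _ => ?_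
      have h1 := congrArg (fun t : ℤ => (t : ℝ)) (Int.toNat_sub_toNat_neg (z u))
      have h2 := congrArg (fun t : ℚ => (t : ℝ)) (hz' u)
      push_cast at h1 h2
      simp only [hT]
      linear_combination (-(A : ℝ) * Real.log ‖j (xL u)‖) * (h1.trans h2)
    refine (mul_eq_zero.1 h0).resolve_left (mul_ne_zero ?_ (Nat.cast_ne_zero.2 hA.ne'))
    exact Int.cast_ne_zero.2 (nonZeroDivisors.ne_zero D.2)
  have hTc : ∀ u, T u = ∑ i, (c u i : ℝ) * T (a i) := fun u => by
    have h := hbal (fun v => (if v = u then 1 else 0) - ∑ i, if a i = v then c u i else 0) (by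
      simp only [Rat.cast_sub, Rat.cast_sum, apply_ite (Rat.cast : ℚ → ℂ_[p]), Rat.cast_one,
        Rat.cast_zero, sub_mul, sum_sub_distrib, Finset.sum_mul, ite_mul, one_mul, zero_mul]
      rw [sum_comm]
      simp only [Finset.sum_ite_eq, Finset.sum_ite_eq', mem_univ, if_true]
      exact sub_eq_zero.2 (hc u))
    simp only [Rat.cast_sub, Rat.cast_sum, apply_ite (Rat.cast : ℚ → ℝ), Rat.cast_one,
      Rat.cast_zero, sub_mul, sum_sub_distrib, Finset.sum_mul, ite_mul, one_mul, zero_mul] at h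
    rw [sum_comm] at h
    simp only [Finset.sum_ite_eq, Finset.sum_ite_eq', mem_univ, if_true] at h
    exact sub_eq_zero.1 h
  have hcol : ∀ i, ∑ u : (ZMod f)ˣ, θc u * ((c u i : ℝ) : ℂ) = 0 := fun i => by
    have h1 : ∑ u : (ZMod f)ˣ, θL u * (c u i : algebraicClosure ℚ ℂ_[p]) = 0 := Subtype.ext (by
      simpa [θL] using hcz i)
    simpa [θc, map_sum] using congrArg j h1
  refine sum_log_norm_ne_zero hf hprimc hevc hψc ?_
  rw [← sum_units_mul θc fun a => (Real.log ‖1 - ψc a‖ : ℂ)]
  calc ∑ u : (ZMod f)ˣ, θc u * (Real.log ‖1 - ψc u‖ : ℂ)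
      = ∑ u : (ZMod f)ˣ, ∑ i, θc u * ((c u i : ℝ) : ℂ) * (T (a i) : ℂ) := by
        refine sum_congr rfl fun u _ => ?_
        rw [show Real.log ‖1 - ψc u‖ = T u by simp [hT, xL, ψc], hTc u, Complex.ofReal_sum,
          mul_sum]
        exact sum_congr rfl fun i _ => by rw [Complex.ofReal_mul, mul_assoc]
    _ = 0 := by
        rw [sum_comm]
        exact sum_eq_zero fun i _ => by rw [← Finset.sum_mul, hcol i, zero_mul]

/-- **The value at zero of the branch zero is not zero.** -/
theorem branch_zero_ne_zero (hfp : f.Coprime p) {χ : DirichletCharacter ℂ_[p] f} (hne : χ ≠ 1)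
    (hprim : χ.IsPrimitive) (hf : 1 < f) (hev : χ.Even) : branch χ 0 0 ≠ 0 := by
  haveI : NeZero (f : ℂ_[p]) := ⟨Nat.cast_ne_zero.2 (NeZero.ne f)⟩
  obtain ⟨ζ, hζ⟩ := HasEnoughRootsOfUnity.exists_primitiveRoot ℂ_[p] f
  have hψ := AddChar.zmodChar_primitive_of_primitive_root f hζ
  rw [branch_zero hfp hne hprim hf hψ]
  have hprim' : χ⁻¹.IsPrimitive := (DirichletCharacter.conductor_inv χ).trans hprim
  have hev' : χ⁻¹.Even := by
    show χ⁻¹ (-1) = 1
    have h := congrArg (fun θ : DirichletCharacter ℂ_[p] f => θ (-1)) (inv_mul_cancel χ)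
    simp only [MulChar.mul_apply, MulChar.one_apply isUnit_one.neg] at h
    rwa [show χ (-1) = 1 from hev, mul_one] at h
  refine mul_ne_zero (mul_ne_zero (neg_ne_zero.2 ?_) (div_ne_zero ?_ (Nat.cast_ne_zero.2
    (NeZero.ne f)))) ?_
  · intro h
    have h1 : χ p = (p : ℂ_[p]) := by
      rw [sub_eq_zero, eq_comm, div_eq_one_iff_eq FA.GrossKoblitz.natCast_prime_ne_zero] at h
      exact h
    have h2 : ‖χ p‖ = 1 := by
      obtain ⟨w, hw⟩ := (ZMod.isUnit_iff_coprime p f).2 hfp.symm
      rw [← hw]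
      exact DirichletCharacter.unit_norm_eq_one χ w
    rw [h1, FA.GrossKoblitz.norm_prime_eq] at h2
    exact inv_prime_lt_one.ne h2
  · intro h
    have h1 := gaussSum_inv_mul hprim hψ
    rw [h, mul_zero] at h1
    exact mul_ne_zero (IsUnit.map _ isUnit_one.neg).ne_zero (Nat.cast_ne_zero.2 (NeZero.ne f))
      h1.symm
  · rw [show ∑ a, χ⁻¹ a * iwasawaLog p (1 - AddChar.zmodChar f hζ.pow_eq_one (-a)) =
      ∑ a, χ⁻¹ a * iwasawaLog p (1 - AddChar.zmodChar f hζ.pow_eq_one a) from
      Fintype.sum_bijective (fun a : ZMod f => -a) neg_involutive.bijective _ _ fun a => by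
        rw [hev'.eval_neg]]
    exact sum_iwasawaLog_ne_zero hfp hf hprim' hev' hψ

end FA.PadicDirichletL
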