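import Fermat.Agent.PadicDirichletL.GammaLimit

/-!
# The derivative at `0` of the branch `1`

As `b^((p-1) t) = 1 + (p - 1) t log b + O(t^2)`, the branch `1` is differentiable at `0` with
derivative `-(p - 1) (∑ χ(r) log Γ_p(r/f) + (1 - χ(p)) B_{1,χ} log f)`
(`tendsto_slope_branch_one`), which is not zero for odd `χ` with `χ(p) = 1`.
-/

set_option autoImplicit false
set_option linter.unusedSectionVars false
set_option linter.style.haveILetI false

noncomputable section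

open Finset Filter Topology FA.Brumer FA.GrossKoblitz
open FA.GrossRegulator (iwasawaLog gammaExp fracArg gammaExp_pos)

namespace FA.PadicDirichletL

variable {p : ℕ} [hp : Fact p.Prime] {f : ℕ} [NeZero f]

theorem norm_pow_sub_linear_le {b : ℕ} (hb : ¬ p ∣ b) (s : ℕ) :
    ‖(b : ℂ_[p]) ^ ((p - 1) * (p ^ 2 * s)) - 1 -
        ((p - 1 : ℕ) : ℂ_[p]) * ((p ^ 2 * s : ℕ) : ℂ_[p]) * iwasawaLog p (b : ℂ_[p])‖ ≤
      ‖((p ^ 2 * s : ℕ) : ℂ_[p])‖ ^ 2 := by
  have hd := disc_natCast (p := p) hb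
  set l := plog p ((b : ℂ_[p]) ^ gammaExp p) with hl
  have hsm : Small p l := small_of_le (norm_plog_le _)
  have hE : ((p - 1 : ℕ) : ℂ_[p]) * ((p ^ 2 * s : ℕ) : ℂ_[p]) * iwasawaLog p (b : ℂ_[p]) =
      (s : ℂ_[p]) * l := by
    rw [iwasawaLog_of_pow gammaExp_pos hd, ← hl]
    have h0 : ((p - 1 : ℕ) : ℂ_[p]) ≠ 0 :=
      Nat.cast_ne_zero.2 (Nat.sub_pos_of_lt hp.out.one_lt).ne'
    have hp0 : (p : ℂ_[p]) ≠ 0 := natCast_prime_ne_zero
    rw [gammaExp, Nat.cast_mul, Nat.cast_mul]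
    push_cast
    field_simp
  have hx : pexp ((s : ℂ_[p]) * l) = (b : ℂ_[p]) ^ ((p - 1) * (p ^ 2 * s)) := by
    rw [pexp_nat_mul hsm, pexp_plog hd, ← pow_mul, gammaExp, mul_assoc]
  rw [hE, ← hx]
  refine (norm_pexp_sub_linear_le (hsm.mul (IsUltrametricDist.norm_natCast_le_one _ _))).trans
    (pow_le_pow_left₀ (by positivity) ?_ 2)
  rw [norm_mul, Nat.cast_mul (p ^ 2), norm_mul, Nat.cast_pow, norm_prime_pow, mul_left_comm,
    mul_comm (((p : ℝ)⁻¹) ^ 2)]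
  refine mul_le_mul_of_nonneg_left ?_ (norm_nonneg _)
  refine (mul_le_mul_of_nonneg_left (norm_plog_le _) (Nat.cast_nonneg p)).trans_eq ?_
  have hp0 : (p : ℝ) ≠ 0 := Nat.cast_ne_zero.2 hp.out.ne_zero
  rw [rad]
  field_simp

/-- **The derivative.** -/
def derivAtZero (χ : DirichletCharacter ℂ_[p] f) : ℂ_[p] :=
  -(((p - 1 : ℕ) : ℂ_[p]) * logDeriv' χ)

theorem norm_branch_one_sub_le_natCast (hfp : f.Coprime p) {χ : DirichletCharacter ℂ_[p] f}
    (hne : χ ≠ 1) (s : ℕ) :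
    ‖branch χ 1 ((p ^ 2 * s : ℕ) : ℤ_[p]) - branch χ 1 0 -
        ((p ^ 2 * s : ℕ) : ℂ_[p]) * derivAtZero χ‖ ≤ ‖((p ^ 2 * s : ℕ) : ℂ_[p])‖ ^ 2 := by
  set t := p ^ 2 * s
  have h1 := tendsto_riemannSum_branch hfp hne 1 t
  have h0 := tendsto_riemannSum_branch hfp hne 1 0
  have hl := (tendsto_logDeriv hfp hne).const_mul (((p - 1 : ℕ) : ℂ_[p]) * (t : ℂ_[p]))
  rw [Nat.cast_zero] at h0
  refine le_trans (le_of_eq ?_) (le_of_tendsto' ((h1.sub h0).sub hl).norm fun n => ?_)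
  · rw [← norm_neg, derivAtZero]
    congr 1
    ring
  rw [riemannSum, riemannSum, mul_sum, ← sum_sub_distrib, ← sum_sub_distrib]
  refine IsUltrametricDist.norm_sum_le_of_forall_le_of_nonneg (by positivity) fun b hb => ?_
  rw [show (((1 + (p - 1) * t : ℕ)) : ℤ) - 1 = (((p - 1) * t : ℕ) : ℤ) by omega, zpow_natCast,
    show (((1 + (p - 1) * 0 : ℕ)) : ℤ) - 1 = 0 by simp, zpow_zero, ← sub_mul,
    ← mul_assoc (((p - 1 : ℕ) : ℂ_[p]) * (t : ℂ_[p])), ← sub_mul, norm_mul]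
  exact (mul_le_of_le_one_right (norm_nonneg _) (norm_nu_le hfp χ n b)).trans
    (norm_pow_sub_linear_le (not_dvd_of_mem hb) s)

theorem norm_branch_one_sub_le (hfp : f.Coprime p) {χ : DirichletCharacter ℂ_[p] f} (hne : χ ≠ 1)
    (y : ℤ_[p]) :
    ‖branch χ 1 ((p : ℤ_[p]) ^ 2 * y) - branch χ 1 0 -
        toCp p ((p : ℤ_[p]) ^ 2 * y) * derivAtZero χ‖ ≤ ‖toCp p ((p : ℤ_[p]) ^ 2 * y)‖ ^ 2 := by
  have hc : Continuous fun y : ℤ_[p] => (p : ℤ_[p]) ^ 2 * y := continuous_const_mul _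
  refine PadicInt.denseRange_natCast.induction_on y (isClosed_le ?_ ?_) fun s => ?_
  · exact ((((continuous_branch hfp hne 1).comp hc).sub continuous_const).sub
      ((continuous_toCp.comp hc).mul_const _)).norm
  · exact (continuous_toCp.comp hc).norm.pow 2
  · rw [show (p : ℤ_[p]) ^ 2 * (s : ℤ_[p]) = ((p ^ 2 * s : ℕ) : ℤ_[p]) by push_cast; rfl,
      map_natCast]
    exact norm_branch_one_sub_le_natCast hfp hne s

/-- **The branch `1` is differentiable at `0`.** -/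
theorem tendsto_slope_branch_one (hfp : f.Coprime p) {χ : DirichletCharacter ℂ_[p] f}
    (hne : χ ≠ 1) :
    Tendsto (fun t : ℤ_[p] => (branch χ 1 t - branch χ 1 0) / toCp p t) (𝓝[≠] 0)
      (𝓝 (derivAtZero χ)) := by
  refine tendsto_iff_norm_sub_tendsto_zero.2 (squeeze_zero' (Eventually.of_forall fun _ =>
    norm_nonneg _) ?_ ((tendsto_norm_zero).mono_left nhdsWithin_le_nhds))
  have hev : ∀ᶠ t in 𝓝[≠] (0 : ℤ_[p]), ‖t‖ ≤ ((p : ℝ)⁻¹) ^ 2 :=
    nhdsWithin_le_nhds (Filter.mem_of_superset (Metric.closedBall_mem_nhds (0 : ℤ_[p])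
      (pow_pos (inv_pos.2 (show (0 : ℝ) < p from Nat.cast_pos.2 hp.out.pos)) 2))
      fun t ht => by simpa using ht)
  filter_upwards [hev, self_mem_nhdsWithin] with t ht ht0
  rw [inv_pow, ← zpow_natCast, ← zpow_neg, PadicInt.norm_le_pow_iff_mem_span_pow,
    Ideal.mem_span_singleton] at ht
  obtain ⟨y, rfl⟩ := ht
  have h0 : toCp p ((p : ℤ_[p]) ^ 2 * y) ≠ 0 := fun e => ht0 (toCp_injective (by rw [e, map_zero]))
  rw [div_sub' h0, norm_div, div_le_iff₀ (norm_pos_iff.2 h0), ← norm_toCp, ← pow_two]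
  exact norm_branch_one_sub_le hfp hne y

theorem branch_one_zero (hfp : f.Coprime p) {χ : DirichletCharacter ℂ_[p] f} (hne : χ ≠ 1) :
    branch χ 1 0 = -((1 - χ p) * bernChar χ 1) := by
  have h := branch_natCast hfp hne (k := 1) (t := 0) (by simp)
  rw [Nat.cast_zero, mul_zero, Nat.add_zero] at h
  rw [h, lValue, Nat.sub_self, pow_zero, mul_one, Nat.cast_one, div_one]

/-- **The derivative does not vanish at a trivial zero.** -/
theorem derivAtZero_ne_zero (hfp : f.Coprime p) {χ : DirichletCharacter ℂ_[p] f}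
    (hprim : χ.IsPrimitive) (hodd : χ.Odd) (hχp : χ p = 1) : derivAtZero χ ≠ 0 := by
  refine neg_ne_zero.2 (mul_ne_zero
    (Nat.cast_ne_zero.2 (Nat.sub_pos_of_lt hp.out.one_lt).ne') ?_)
  rw [logDeriv', hχp, sub_self, zero_mul, zero_mul, add_zero]
  simp only [logGamma_eq, ← mul_div_assoc, ← sum_div]
  exact div_ne_zero (FA.GrossRegulator.sum_plog_ne_zero hfp hprim hodd hχp)
    (Nat.cast_ne_zero.2 gammaExp_pos.ne')

end FA.PadicDirichletL
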