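import Mathlib.NumberTheory.BernoulliPolynomials
import Mathlib.NumberTheory.DirichletCharacter.Basic
import Mathlib.NumberTheory.Padics.Complex
import Mathlib.Analysis.Calculus.Deriv.Polynomial
import Mathlib.Analysis.Calculus.Deriv.Slope
import Fermat.Agent.GrossKoblitz.Basic

/-!
# Generalised Bernoulli numbers as `p`-adic limits

`B_{m,χ} = f^(m-1) ∑ χ(a) B_m(a/f)` is the limit of `(f p^n)⁻¹ ∑ χ(a) a^m`, `a < f p^n`
(`tendsto_powMean`), and over the `a` prime to `p` the limit is `(1 - χ(p) p^(m-1)) B_{m,χ}`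
(`tendsto_unitMean`).
-/

set_option autoImplicit false
set_option linter.unusedSectionVars false
set_option linter.style.haveILetI false

noncomputable section

open Finset Filter Topology

namespace FA.PadicDirichletL

variable {p : ℕ} [hp : Fact p.Prime] {f : ℕ} [NeZero f]

/-- Blocks. -/
theorem sum_range_blocks {M : Type*} [AddCommMonoid M] (A : ℕ) (g : ℕ → M) :
    ∀ B, ∑ a ∈ range (A * B), g a = ∑ b ∈ range A, ∑ c ∈ range B, g (b + A * c)
  | 0 => by simp
  | B + 1 => by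
    rw [mul_add, mul_one, sum_range_add, sum_range_blocks A g B, ← sum_add_distrib]
    exact sum_congr rfl fun b _ => by rw [sum_range_succ, add_comm (A * B)]

/-- A sum over residues. -/
theorem sum_range_eq_sum_zmod {M : Type*} [AddCommMonoid M] (g : ℕ → M) :
    ∑ b ∈ range f, g b = ∑ r : ZMod f, g r.val :=
  sum_nbij' (fun b => (b : ZMod f)) ZMod.val (fun _ _ => mem_univ _)
    (fun r _ => mem_range.2 (ZMod.val_lt r))
    (fun _ hb => ZMod.val_cast_of_lt (mem_range.1 hb)) (fun r _ => ZMod.natCast_zmod_val r)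
    fun b hb => by rw [ZMod.val_cast_of_lt (mem_range.1 hb)]

/-- **The generalised Bernoulli numbers.** -/
def bernChar (χ : DirichletCharacter ℂ_[p] f) (m : ℕ) : ℂ_[p] :=
  (f : ℂ_[p]) ^ (m - 1) *
    ∑ a : ZMod f, χ a * (((Polynomial.bernoulli m).eval ((a.val : ℚ) / f) : ℚ) : ℂ_[p])

/-- The mean of `g` weighted by `χ`. -/
def powMean (χ : DirichletCharacter ℂ_[p] f) (g : ℕ → ℂ_[p]) (n : ℕ) : ℂ_[p] :=
  ((f * p ^ n : ℕ) : ℂ_[p])⁻¹ * ∑ a ∈ range (f * p ^ n), χ a * g a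

/-- The mean over the arguments prime to `p`. -/
def unitMean (χ : DirichletCharacter ℂ_[p] f) (g : ℕ → ℂ_[p]) (n : ℕ) : ℂ_[p] :=
  ((f * p ^ n : ℕ) : ℂ_[p])⁻¹ * ∑ a ∈ (range (f * p ^ n)).filter (¬ p ∣ ·), χ a * g a

theorem tendsto_prime_pow : Tendsto (fun n => ((p : ℂ_[p]) ^ n)) atTop (𝓝 0) :=
  tendsto_pow_atTop_nhds_zero_of_norm_lt_one (by
    rw [FA.GrossKoblitz.norm_prime_eq]
    exact inv_lt_one_of_one_lt₀ (by exact_mod_cast hp.out.one_lt))

theorem bernoulli_telescope (m : ℕ) (x : ℚ) : ∀ P : ℕ,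
    (m + 1 : ℚ) * ∑ c ∈ range P, (x + c) ^ m =
      (Polynomial.bernoulli (m + 1)).eval (x + P) - (Polynomial.bernoulli (m + 1)).eval x
  | 0 => by simp
  | P + 1 => by
    rw [sum_range_succ, mul_add, bernoulli_telescope m x P, Nat.cast_succ,
      show x + ((P : ℚ) + 1) = 1 + (x + P) by ring, Polynomial.bernoulli_eval_one_add,
      Nat.add_sub_cancel]
    push_cast
    ring

/-- The mean of powers over a progression. -/
theorem tendsto_mean_pow (m : ℕ) (x : ℚ) :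
    Tendsto (fun n => ((p : ℂ_[p]) ^ n)⁻¹ * ((∑ c ∈ range (p ^ n), (x + c) ^ m : ℚ) : ℂ_[p]))
      atTop (𝓝 (((Polynomial.bernoulli m).eval x : ℚ) : ℂ_[p])) := by
  set q := (Polynomial.bernoulli (m + 1)).map (algebraMap ℚ ℂ_[p])
  have hev : ∀ y : ℚ, q.eval (y : ℂ_[p]) = (((Polynomial.bernoulli (m + 1)).eval y : ℚ) : ℂ_[p]) :=
    fun y => by
      rw [← eq_ratCast (algebraMap ℚ ℂ_[p]) y, Polynomial.eval_map_apply, eq_ratCast]
  have h0 : Tendsto (fun n => ((p : ℂ_[p]) ^ n)) atTop (𝓝[≠] 0) :=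
    tendsto_nhdsWithin_iff.2 ⟨tendsto_prime_pow, Eventually.of_forall fun n =>
      pow_ne_zero n FA.GrossKoblitz.natCast_prime_ne_zero⟩
  have h1 := (hasDerivAt_iff_tendsto_slope_zero.1 (q.hasDerivAt (x : ℂ_[p]))).comp h0
  have hd : q.derivative.eval (x : ℂ_[p]) =
      (m + 1 : ℂ_[p]) * (((Polynomial.bernoulli m).eval x : ℚ) : ℂ_[p]) := by
    rw [Polynomial.derivative_map, Polynomial.derivative_bernoulli_add_one, Polynomial.map_mul,
      Polynomial.eval_mul, ← eq_ratCast (algebraMap ℚ ℂ_[p]) x, Polynomial.eval_map_apply,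
      Polynomial.eval_map_apply, eq_ratCast, eq_ratCast]
    simp
  rw [hd] at h1
  have hm : (m + 1 : ℂ_[p]) ≠ 0 := by exact_mod_cast Nat.succ_ne_zero m
  have h2 := h1.const_mul (m + 1 : ℂ_[p])⁻¹
  rw [inv_mul_cancel_left₀ hm] at h2
  refine h2.congr fun n => ?_
  simp only [Function.comp_apply, smul_eq_mul]
  have ht := congrArg (fun t : ℚ => (t : ℂ_[p])) (bernoulli_telescope m x (p ^ n))
  simp only [Rat.cast_sub, Rat.cast_mul, Rat.cast_add, Rat.cast_natCast, Rat.cast_one] at ht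
  have hcast : (x : ℂ_[p]) + (p : ℂ_[p]) ^ n = ((x + ((p ^ n : ℕ) : ℚ) : ℚ) : ℂ_[p]) := by
    push_cast
    rfl
  rw [hcast, hev, hev, ← ht]
  field_simp

/-- **`B_{m,χ}` is the limit of the means of the powers.** -/
theorem tendsto_powMean (χ : DirichletCharacter ℂ_[p] f) {m : ℕ} (hm : 1 ≤ m) :
    Tendsto (powMean χ fun a => (a : ℂ_[p]) ^ m) atTop (𝓝 (bernChar χ m)) := by
  have h := tendsto_finsetSum (univ : Finset (ZMod f)) fun r _ =>
    ((tendsto_mean_pow (p := p) m ((r.val : ℚ) / f)).const_mul (χ r)).const_mul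
      ((f : ℂ_[p]) ^ (m - 1))
  rw [← mul_sum] at h
  refine h.congr fun n => ?_
  rw [powMean, sum_range_blocks f, sum_range_eq_sum_zmod, mul_sum]
  refine sum_congr rfl fun r _ => ?_
  have hf : (f : ℂ_[p]) ≠ 0 := Nat.cast_ne_zero.2 (NeZero.ne f)
  have hfm : (f : ℂ_[p]) ^ m = (f : ℂ_[p]) ^ (m - 1) * f := by
    rw [← pow_succ, Nat.sub_add_cancel hm]
  rw [Rat.cast_sum, mul_sum, mul_sum, mul_sum, mul_sum]
  refine sum_congr rfl fun c _ => ?_
  rw [show ((r.val + f * c : ℕ) : ZMod f) = r by simp]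
  push_cast
  rw [show ((r.val : ℂ_[p]) + f * c) ^ m =
      (f : ℂ_[p]) ^ (m - 1) * f * ((r.val : ℂ_[p]) / f + c) ^ m by
    rw [← hfm, ← mul_pow, mul_add, mul_div_cancel₀ _ hf]]
  field_simp

/-- **Removing the arguments divisible by `p`.** -/
theorem tendsto_unitMean (χ : DirichletCharacter ℂ_[p] f) {m : ℕ} (hm : 1 ≤ m) :
    Tendsto (unitMean χ fun a => (a : ℂ_[p]) ^ m) atTop
      (𝓝 ((1 - χ p * (p : ℂ_[p]) ^ (m - 1)) * bernChar χ m)) := by
  rw [← tendsto_add_atTop_iff_nat 1, sub_mul, one_mul]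
  refine (((tendsto_powMean χ hm).comp (tendsto_add_atTop_nat 1)).sub
    ((tendsto_powMean χ hm).const_mul (χ p * (p : ℂ_[p]) ^ (m - 1)))).congr fun n => ?_
  set L := f * p ^ (n + 1)
  have hL : L = p * (f * p ^ n) := by simp only [L, pow_succ]; ring
  have hdiv : ∑ a ∈ (range L).filter (p ∣ ·), χ a * (a : ℂ_[p]) ^ m =
      χ p * (p : ℂ_[p]) ^ m * ∑ a ∈ range (f * p ^ n), χ a * (a : ℂ_[p]) ^ m := by
    rw [mul_sum]
    refine (sum_nbij' (fun a => p * a) (fun a => a / p) (fun a ha => ?_) (fun a ha => ?_)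
      (fun a _ => Nat.mul_div_cancel_left a hp.out.pos)
      (fun a ha => Nat.mul_div_cancel' (mem_filter.1 ha).2) fun a _ => ?_).symm
    · refine mem_filter.2 ⟨mem_range.2 ?_, dvd_mul_right p a⟩
      rw [hL]
      exact Nat.mul_lt_mul_of_pos_left (mem_range.1 ha) hp.out.pos
    · refine mem_range.2 ?_
      rw [Nat.div_lt_iff_lt_mul hp.out.pos, mul_comm (f * p ^ n), ← hL]
      exact mem_range.1 (mem_filter.1 ha).1
    · rw [Nat.cast_mul (α := ZMod f), map_mul, Nat.cast_mul, mul_pow]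
      ring
  have hsplit := sum_filter_add_sum_filter_not (range L) (p ∣ ·)
    (fun a : ℕ => χ a * (a : ℂ_[p]) ^ m)
  rw [hdiv] at hsplit
  simp only [Function.comp_apply, powMean, unitMean]
  rw [← hsplit, show f * p ^ (n + 1) = p * (f * p ^ n) from hL, Nat.cast_mul p, mul_inv,
    show (p : ℂ_[p]) ^ m = (p : ℂ_[p]) ^ (m - 1) * p by rw [← pow_succ, Nat.sub_add_cancel hm]]
  have hp0 : (p : ℂ_[p]) ≠ 0 := FA.GrossKoblitz.natCast_prime_ne_zero
  field_simp
  rw [show L = f * p * p ^ n by simp only [L, pow_succ]; ring]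
  ring_nf

end FA.PadicDirichletL
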