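import Fermat.Agent.PadicDirichletL.Bernoulli
import Mathlib.NumberTheory.DirichletCharacter.Bounds

/-!
# The branches of the `p`-adic `L`-function of a character

With `ν_n(b) = f⁻¹ ∑ c χ(b + p^n c)`, `c < f`, the sums `R_n(j) = ∑ b^j ν_n(b)`, `b < p^n` prime
to `p`, depend only on `j` modulo `(p - 1) p^N` up to `p^(-N-1)`, and `R_n(m - 1)` tends to
`(1 - χ(p) p^(m-1)) B_{m,χ} / m`. So the values interpolate to the continuous `branch k`.
-/

set_option autoImplicit false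
set_option linter.unusedSectionVars false
set_option linter.style.haveILetI false

noncomputable section

open Finset Filter Topology

namespace FA.PadicDirichletL

variable {p : ℕ} [hp : Fact p.Prime] {f : ℕ} [NeZero f]

theorem norm_prime_pow (n : ℕ) : ‖(p : ℂ_[p]) ^ n‖ = ((p : ℝ)⁻¹) ^ n := by
  rw [norm_pow, FA.GrossKoblitz.norm_prime_eq]

theorem inv_prime_lt_one : (p : ℝ)⁻¹ < 1 :=
  inv_lt_one_of_one_lt₀ (by exact_mod_cast hp.out.one_lt)

theorem tendsto_inv_prime_pow : Tendsto (fun n => ((p : ℝ)⁻¹) ^ n) atTop (𝓝 0) :=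
  tendsto_pow_atTop_nhds_zero_of_lt_one (by positivity) inv_prime_lt_one

theorem not_dvd_level (hfp : f.Coprime p) : ¬ p ∣ f :=
  (Nat.Prime.coprime_iff_not_dvd hp.out).1 hfp.symm

theorem norm_level (hfp : f.Coprime p) : ‖(f : ℂ_[p])‖ = 1 :=
  FA.GrossKoblitz.norm_natCast_eq_one (not_dvd_level hfp)

variable (p) in
/-- The residues prime to `p` below `p ^ n`. -/
def unitRes (n : ℕ) : Finset ℕ := (range (p ^ n)).filter (¬ p ∣ ·)

theorem not_dvd_of_mem {n b : ℕ} (h : b ∈ unitRes p n) : ¬ p ∣ b := (mem_filter.1 h).2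

/-- **The measure.** -/
def nu (χ : DirichletCharacter ℂ_[p] f) (n b : ℕ) : ℂ_[p] :=
  (f : ℂ_[p])⁻¹ * ∑ c ∈ range f, (c : ℂ_[p]) * χ ((b + p ^ n * c : ℕ) : ZMod f)

theorem norm_nu_le (hfp : f.Coprime p) (χ : DirichletCharacter ℂ_[p] f) (n b : ℕ) :
    ‖nu χ n b‖ ≤ 1 := by
  rw [nu, norm_mul, norm_inv, norm_level hfp, inv_one, one_mul]
  refine IsUltrametricDist.norm_sum_le_of_forall_le_of_nonneg zero_le_one fun c _ => ?_
  rw [norm_mul]
  exact mul_le_one₀ (IsUltrametricDist.norm_natCast_le_one _ _) (norm_nonneg _)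
    (DirichletCharacter.norm_le_one χ _)

theorem sum_char_shift (hfp : f.Coprime p) {χ : DirichletCharacter ℂ_[p] f} (hne : χ ≠ 1)
    (n b : ℕ) : ∑ c ∈ range f, χ ((b + p ^ n * c : ℕ) : ZMod f) = 0 := by
  obtain ⟨w, hw⟩ := (ZMod.isUnit_iff_coprime p f).2 hfp.symm
  rw [sum_range_eq_sum_zmod, ← MulChar.sum_eq_zero_of_ne_one hne]
  refine Fintype.sum_bijective (fun r : ZMod f => (b : ZMod f) + (p : ZMod f) ^ n * r)
    ((AddGroup.addLeft_bijective (b : ZMod f)).comp ?_) _ _ fun r => by simp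
  rw [← hw, ← Units.val_pow_eq_pow_val]
  exact Units.mulLeft_bijective _

theorem dvd_add_pow_mul_iff {n : ℕ} (hn : n ≠ 0) (b c : ℕ) : p ∣ b + p ^ n * c ↔ p ∣ b :=
  (Nat.dvd_add_iff_left ((dvd_pow_self p hn).trans (dvd_mul_right _ _))).symm

/-- **A mean is a Riemann sum of the derivative.** -/
theorem norm_unitMean_sub_le (hfp : f.Coprime p) {χ : DirichletCharacter ℂ_[p] f} (hne : χ ≠ 1)
    {g D : ℕ → ℂ_[p]} {C : ℝ} (hC : 0 ≤ C) {n : ℕ} (hn : n ≠ 0)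
    (h : ∀ b c, ¬ p ∣ b →
      ‖g (b + p ^ n * c) - g b - D b * ((p : ℂ_[p]) ^ n * c)‖ ≤ C * ((p : ℝ)⁻¹) ^ (2 * n)) :
    ‖unitMean χ g n - ∑ b ∈ unitRes p n, D b * nu χ n b‖ ≤ C * ((p : ℝ)⁻¹) ^ n := by
  have hsum : ∑ a ∈ (range (f * p ^ n)).filter (¬ p ∣ ·), χ a * g a =
      ∑ b ∈ unitRes p n, ∑ c ∈ range f,
        χ ((b + p ^ n * c : ℕ) : ZMod f) * g (b + p ^ n * c) := by
    rw [sum_filter, unitRes, sum_filter, mul_comm f, sum_range_blocks (p ^ n)]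
    refine sum_congr rfl fun b _ => ?_
    simp only [dvd_add_pow_mul_iff hn]
    by_cases hb : p ∣ b <;> simp [hb]
  have hP : (p : ℂ_[p]) ^ n ≠ 0 := pow_ne_zero n FA.GrossKoblitz.natCast_prime_ne_zero
  have hf : (f : ℂ_[p]) ≠ 0 := Nat.cast_ne_zero.2 (NeZero.ne f)
  have key : unitMean χ g n - ∑ b ∈ unitRes p n, D b * nu χ n b =
      ((f : ℂ_[p]) * (p : ℂ_[p]) ^ n)⁻¹ * ∑ b ∈ unitRes p n, ∑ c ∈ range f,
        χ ((b + p ^ n * c : ℕ) : ZMod f) *
          (g (b + p ^ n * c) - g b - D b * ((p : ℂ_[p]) ^ n * c)) := by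
    rw [unitMean, hsum, Nat.cast_mul, Nat.cast_pow, mul_sum, mul_sum, ← sum_sub_distrib]
    refine sum_congr rfl fun b _ => ?_
    simp only [mul_sub, sum_sub_distrib, ← sum_mul, sum_char_shift hfp hne, zero_mul,
      sub_zero, nu, mul_sum]
    refine congrArg₂ _ rfl (sum_congr rfl fun c _ => ?_)
    field_simp
  rw [key, norm_mul, norm_inv, norm_mul, norm_level hfp, one_mul, norm_prime_pow]
  have hpos : (0 : ℝ) < ((p : ℝ)⁻¹) ^ n :=
    pow_pos (inv_pos.2 (by exact_mod_cast hp.out.pos)) n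
  rw [inv_mul_le_iff₀ hpos, mul_left_comm, ← pow_add, ← two_mul]
  refine IsUltrametricDist.norm_sum_le_of_forall_le_of_nonneg (by positivity) fun b hb => ?_
  refine IsUltrametricDist.norm_sum_le_of_forall_le_of_nonneg (by positivity) fun c _ => ?_
  rw [norm_mul]
  exact (mul_le_of_le_one_left (norm_nonneg _) (DirichletCharacter.norm_le_one χ _)).trans
    (h b c (not_dvd_of_mem hb))

/-- Two terms of the binomial formula. -/
theorem norm_add_pow_sub_le {x y : ℂ_[p]} (hx : ‖x‖ ≤ 1) (hy : ‖y‖ ≤ 1) :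
    ∀ m : ℕ, ‖(x + y) ^ m - x ^ m - (m : ℂ_[p]) * x ^ (m - 1) * y‖ ≤ ‖y‖ ^ 2
  | 0 => by simp
  | 1 => by simp
  | m + 2 => by
    rw [show (x + y) ^ (m + 2) - x ^ (m + 2) - ((m + 2 : ℕ) : ℂ_[p]) * x ^ (m + 2 - 1) * y =
      (x + y) * ((x + y) ^ (m + 1) - x ^ (m + 1) - ((m + 1 : ℕ) : ℂ_[p]) * x ^ (m + 1 - 1) * y) +
        ((m + 1 : ℕ) : ℂ_[p]) * x ^ m * y ^ 2 by
      simp only [show m + 2 - 1 = m + 1 by omega, show m + 1 - 1 = m by omega]
      push_cast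
      ring]
    refine (IsUltrametricDist.norm_add_le_max _ _).trans (max_le ?_ ?_)
    · rw [norm_mul]
      exact (mul_le_of_le_one_left (norm_nonneg _) ((IsUltrametricDist.norm_add_le_max x y).trans
        (max_le hx hy))).trans (norm_add_pow_sub_le hx hy (m + 1))
    · rw [norm_mul, norm_mul, norm_pow, norm_pow]
      exact mul_le_of_le_one_left (by positivity) (mul_le_one₀
        (IsUltrametricDist.norm_natCast_le_one _ _) (by positivity)
        (pow_le_one₀ (norm_nonneg _) hx))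

/-- The sums `∑ b^j ν_n(b)`. -/
def riemannSum (χ : DirichletCharacter ℂ_[p] f) (n : ℕ) (j : ℤ) : ℂ_[p] :=
  ∑ b ∈ unitRes p n, (b : ℂ_[p]) ^ j * nu χ n b

/-- **The value `-(1 - χ(p) p^(m-1)) B_{m,χ} / m`.** -/
def lValue (χ : DirichletCharacter ℂ_[p] f) (m : ℕ) : ℂ_[p] :=
  -((1 - χ p * (p : ℂ_[p]) ^ (m - 1)) * bernChar χ m) / m

theorem tendsto_riemannSum (hfp : f.Coprime p) {χ : DirichletCharacter ℂ_[p] f} (hne : χ ≠ 1)
    {m : ℕ} (hm : 1 ≤ m) :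
    Tendsto (fun n => riemannSum χ n ((m : ℤ) - 1)) atTop (𝓝 (-lValue χ m)) := by
  have hm0 : (m : ℂ_[p]) ≠ 0 := Nat.cast_ne_zero.2 (by omega)
  have hclose : ∀ᶠ n in atTop,
      ‖(m : ℂ_[p]) * riemannSum χ n ((m : ℤ) - 1) - unitMean χ (fun a => (a : ℂ_[p]) ^ m) n‖ ≤
        ((p : ℝ)⁻¹) ^ n := by
    filter_upwards [eventually_ne_atTop 0] with n hn
    have h := norm_unitMean_sub_le hfp hne (g := fun a => (a : ℂ_[p]) ^ m)
      (D := fun b => (m : ℂ_[p]) * (b : ℂ_[p]) ^ (m - 1)) zero_le_one hn fun b c _ => by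
        push_cast
        refine (norm_add_pow_sub_le (IsUltrametricDist.norm_natCast_le_one _ _) ?_ m).trans ?_
        · rw [norm_mul, norm_prime_pow]
          exact mul_le_one₀ (pow_le_one₀ (by positivity) inv_prime_lt_one.le) (norm_nonneg _)
            (IsUltrametricDist.norm_natCast_le_one _ _)
        · rw [one_mul, mul_comm 2 n, pow_mul, norm_mul, norm_prime_pow]
          exact pow_le_pow_left₀ (by positivity) (mul_le_of_le_one_right (by positivity)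
            (IsUltrametricDist.norm_natCast_le_one _ _)) 2
    rw [one_mul] at h
    rw [norm_sub_rev, riemannSum, mul_sum, show (m : ℤ) - 1 = ((m - 1 : ℕ) : ℤ) by omega]
    simpa only [zpow_natCast, mul_assoc] using h
  have h1 : Tendsto (fun n => (m : ℂ_[p]) * riemannSum χ n ((m : ℤ) - 1)) atTop
      (𝓝 ((1 - χ p * (p : ℂ_[p]) ^ (m - 1)) * bernChar χ m)) := by
    have h0 := squeeze_zero_norm' hclose tendsto_inv_prime_pow
    simpa using h0.add (tendsto_unitMean χ hm)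
  have h2 := h1.const_mul (m : ℂ_[p])⁻¹
  simp only [inv_mul_cancel_left₀ hm0] at h2
  convert h2 using 2
  rw [lValue, neg_div, neg_neg, div_eq_inv_mul]

/-- Powers of units modulo `p ^ (N + 1)`. -/
theorem norm_pow_totient_sub_one_le {b : ℕ} (hb : ¬ p ∣ b) (N : ℕ) :
    ‖(b : ℂ_[p]) ^ ((p - 1) * p ^ N) - 1‖ ≤ ((p : ℝ)⁻¹) ^ (N + 1) := by
  have h := Nat.ModEq.pow_totient (((Nat.Prime.coprime_iff_not_dvd hp.out).2 hb).symm.pow_right
    (N + 1))
  rw [Nat.totient_prime_pow hp.out N.succ_pos, Nat.succ_sub_one, mul_comm (p ^ N)] at h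
  obtain ⟨k, hk⟩ := Int.modEq_iff_dvd.1 (Int.natCast_modEq_iff.2 h.symm)
  push_cast at hk
  have hk' := congrArg (fun x : ℤ => (x : ℂ_[p])) hk
  push_cast at hk'
  rw [hk', norm_mul, norm_prime_pow]
  exact mul_le_of_le_one_right (by positivity) (IsUltrametricDist.norm_intCast_le_one _ _)

/-- Powers of a number of absolute value one. -/
theorem norm_pow_sub_one_le {x : ℂ_[p]} (hx : ‖x‖ = 1) : ∀ s : ℕ, ‖x ^ s - 1‖ ≤ ‖x - 1‖
  | 0 => by simp
  | s + 1 => by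
    rw [show x ^ (s + 1) - 1 = x * (x ^ s - 1) + (x - 1) by ring]
    refine (IsUltrametricDist.norm_add_le_max _ _).trans (max_le ?_ le_rfl)
    rw [norm_mul, hx, one_mul]
    exact norm_pow_sub_one_le hx s

theorem norm_zpow_sub_zpow_le {b : ℕ} (hb : ¬ p ∣ b) {N : ℕ} {i j : ℤ}
    (h : ((((p - 1) * p ^ N : ℕ)) : ℤ) ∣ j - i) :
    ‖(b : ℂ_[p]) ^ j - (b : ℂ_[p]) ^ i‖ ≤ ((p : ℝ)⁻¹) ^ (N + 1) := by
  obtain ⟨s, hs⟩ := h
  have hb1 := FA.GrossKoblitz.norm_natCast_eq_one (p := p) hb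
  have hb0 : (b : ℂ_[p]) ≠ 0 := norm_ne_zero_iff.1 (by rw [hb1]; exact one_ne_zero)
  set x := (b : ℂ_[p]) ^ ((p - 1) * p ^ N)
  have hx : ‖x‖ = 1 := by rw [norm_pow, hb1, one_pow]
  have hj : (b : ℂ_[p]) ^ j - (b : ℂ_[p]) ^ i = (b : ℂ_[p]) ^ i * (x ^ s - 1) := by
    rw [show j = i + (((p - 1) * p ^ N : ℕ) : ℤ) * s by linarith, zpow_add₀ hb0, zpow_mul,
      zpow_natCast, mul_sub, mul_one]
  rw [hj, norm_mul, norm_zpow, hb1, one_zpow, one_mul]
  refine le_trans ?_ (norm_pow_totient_sub_one_le hb N)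
  obtain ⟨t, rfl | rfl⟩ := Int.eq_nat_or_neg s
  · rw [zpow_natCast]
    exact norm_pow_sub_one_le hx t
  · have hxt : x ^ t ≠ 0 := pow_ne_zero _ (pow_ne_zero _ hb0)
    rw [zpow_neg, zpow_natCast, show (x ^ t)⁻¹ - 1 = -((x ^ t)⁻¹ * (x ^ t - 1)) by
      rw [mul_sub, inv_mul_cancel₀ hxt]; ring, norm_neg, norm_mul, norm_inv, norm_pow, hx,
      one_pow, inv_one, one_mul]
    exact norm_pow_sub_one_le hx t

theorem norm_riemannSum_sub_le (hfp : f.Coprime p) (χ : DirichletCharacter ℂ_[p] f) (n : ℕ)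
    {N : ℕ} {i j : ℤ} (h : ((((p - 1) * p ^ N : ℕ)) : ℤ) ∣ j - i) :
    ‖riemannSum χ n j - riemannSum χ n i‖ ≤ ((p : ℝ)⁻¹) ^ (N + 1) := by
  rw [riemannSum, riemannSum, ← sum_sub_distrib]
  refine IsUltrametricDist.norm_sum_le_of_forall_le_of_nonneg (by positivity) fun b hb => ?_
  rw [← sub_mul, norm_mul]
  exact (mul_le_of_le_one_right (norm_nonneg _) (norm_nu_le hfp χ n b)).trans
    (norm_zpow_sub_zpow_le (not_dvd_of_mem hb) h)

/-- **The congruences of Kummer.** -/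
theorem norm_lValue_sub_le (hfp : f.Coprime p) {χ : DirichletCharacter ℂ_[p] f} (hne : χ ≠ 1)
    {m m' N : ℕ} (hm : 1 ≤ m) (hm' : 1 ≤ m')
    (h : ((((p - 1) * p ^ N : ℕ)) : ℤ) ∣ (m : ℤ) - m') :
    ‖lValue χ m - lValue χ m'‖ ≤ ((p : ℝ)⁻¹) ^ (N + 1) := by
  rw [← neg_sub_neg, norm_sub_rev]
  refine le_of_tendsto' ((tendsto_riemannSum hfp hne hm).sub
    (tendsto_riemannSum hfp hne hm')).norm fun n => ?_
  exact norm_riemannSum_sub_le hfp χ n (by simpa using h)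

theorem dvd_sub_of_norm_le {a b N : ℕ}
    (h : ‖(a : ℤ_[p]) - (b : ℤ_[p])‖ ≤ ((p : ℝ)⁻¹) ^ N) : ((p ^ N : ℕ) : ℤ) ∣ (a : ℤ) - b := by
  have h1 : ‖(((a : ℤ) - b : ℤ) : ℤ_[p])‖ ≤ (p : ℝ) ^ (-(N : ℤ)) := by
    rw [zpow_neg, zpow_natCast, ← inv_pow]
    simpa using h
  rw [PadicInt.norm_int_le_pow_iff_dvd] at h1
  simpa using h1

theorem norm_sub_appr_le (x : ℤ_[p]) (N : ℕ) :
    ‖x - ((x.appr N + p ^ N : ℕ) : ℤ_[p])‖ ≤ ((p : ℝ)⁻¹) ^ N := by
  rw [inv_pow, ← zpow_natCast, ← zpow_neg, PadicInt.norm_le_pow_iff_mem_span_pow,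
    show x - ((x.appr N + p ^ N : ℕ) : ℤ_[p]) = (x - (x.appr N : ℤ_[p])) - (p : ℤ_[p]) ^ N by
      push_cast; ring]
  exact sub_mem (PadicInt.appr_spec N x) (Ideal.mem_span_singleton_self _)

theorem norm_sub_le_of_both {x : ℤ_[p]} {a b : ℤ_[p]} {r : ℝ} (ha : ‖x - a‖ ≤ r)
    (hb : ‖x - b‖ ≤ r) : ‖a - b‖ ≤ r := by
  rw [show a - b = (x - b) + -(x - a) by ring]
  exact (PadicInt.nonarchimedean _ _).trans (max_le hb (by rwa [norm_neg]))

theorem one_le_expo (k : ℕ) {t : ℕ} (ht : 1 ≤ t) : 1 ≤ k + (p - 1) * t :=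
  le_trans (Nat.mul_pos (Nat.sub_pos_of_lt hp.out.one_lt) ht) (Nat.le_add_left _ _)

theorem dvd_expo_sub {k t t' N : ℕ} (h : ((p ^ N : ℕ) : ℤ) ∣ (t : ℤ) - t') :
    ((((p - 1) * p ^ N : ℕ)) : ℤ) ∣
      ((k + (p - 1) * t : ℕ) : ℤ) - ((k + (p - 1) * t' : ℕ) : ℤ) := by
  simp only [Nat.cast_add, Nat.cast_mul, add_sub_add_left_eq_sub, ← mul_sub]
  exact mul_dvd_mul_left _ h

/-- Approximating the exponents. -/
def branchSeq (χ : DirichletCharacter ℂ_[p] f) (k : ℕ) (x : ℤ_[p]) (N : ℕ) : ℂ_[p] :=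
  lValue χ (k + (p - 1) * (x.appr N + p ^ N))

/-- **The branches of the `p`-adic `L`-function.** -/
def branch (χ : DirichletCharacter ℂ_[p] f) (k : ℕ) (x : ℤ_[p]) : ℂ_[p] :=
  limUnder atTop (branchSeq χ k x)

theorem norm_branch_sub_le (hfp : f.Coprime p) {χ : DirichletCharacter ℂ_[p] f} (hne : χ ≠ 1)
    {k : ℕ} {x : ℤ_[p]} {t N : ℕ} (hm : 1 ≤ k + (p - 1) * t)
    (h : ‖x - (t : ℤ_[p])‖ ≤ ((p : ℝ)⁻¹) ^ N) :
    ‖branch χ k x - lValue χ (k + (p - 1) * t)‖ ≤ ((p : ℝ)⁻¹) ^ (N + 1) := by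
  have hpos : ∀ M, 1 ≤ x.appr M + p ^ M := fun M =>
    le_trans (Nat.one_le_pow _ _ hp.out.pos) (Nat.le_add_left _ _)
  have hmono : ∀ {M M'}, M ≤ M' → ‖x - ((x.appr M' + p ^ M' : ℕ) : ℤ_[p])‖ ≤ ((p : ℝ)⁻¹) ^ M :=
    fun hle => (norm_sub_appr_le x _).trans
      (pow_le_pow_of_le_one (by positivity) inv_prime_lt_one.le hle)
  have hcau : CauchySeq (branchSeq χ k x) := by
    refine cauchySeq_of_le_tendsto_0' (fun M => ((p : ℝ)⁻¹) ^ (M + 1)) (fun M M' hle => ?_)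
      (tendsto_inv_prime_pow.comp (tendsto_add_atTop_nat 1))
    rw [dist_eq_norm]
    exact norm_lValue_sub_le hfp hne (one_le_expo k (hpos M)) (one_le_expo k (hpos M'))
      (dvd_expo_sub (dvd_sub_of_norm_le (norm_sub_le_of_both (norm_sub_appr_le x M) (hmono hle))))
  refine le_of_tendsto (hcau.tendsto_limUnder.sub_const _).norm ?_
  filter_upwards [eventually_ge_atTop N] with M hM
  exact norm_lValue_sub_le hfp hne (one_le_expo k (hpos M)) hm
    (dvd_expo_sub (dvd_sub_of_norm_le (norm_sub_le_of_both (hmono hM) h)))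

/-- **The interpolation.** -/
theorem branch_natCast (hfp : f.Coprime p) {χ : DirichletCharacter ℂ_[p] f} (hne : χ ≠ 1)
    {k t : ℕ} (hm : 1 ≤ k + (p - 1) * t) :
    branch χ k (t : ℤ_[p]) = lValue χ (k + (p - 1) * t) := by
  refine sub_eq_zero.1 (norm_le_zero_iff.1 (ge_of_tendsto'
    ((tendsto_inv_prime_pow (p := p)).comp (tendsto_add_atTop_nat 1)) fun N => ?_))
  exact norm_branch_sub_le hfp hne hm (by rw [sub_self, norm_zero]; positivity)

theorem norm_branch_sub_branch_le (hfp : f.Coprime p) {χ : DirichletCharacter ℂ_[p] f}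
    (hne : χ ≠ 1) (k : ℕ) {x y : ℤ_[p]} {N : ℕ} (h : ‖x - y‖ ≤ ((p : ℝ)⁻¹) ^ N) :
    ‖branch χ k x - branch χ k y‖ ≤ ((p : ℝ)⁻¹) ^ (N + 1) := by
  have hm : 1 ≤ k + (p - 1) * (x.appr N + p ^ N) := one_le_expo k
    (le_trans (Nat.one_le_pow _ _ hp.out.pos) (Nat.le_add_left _ _))
  have hx := norm_sub_appr_le x N
  have h1 := norm_branch_sub_le hfp hne hm hx
  have h2 := norm_branch_sub_le hfp hne hm (x := y) (by
    rw [show y - ((x.appr N + p ^ N : ℕ) : ℤ_[p]) =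
      -(x - y) + (x - ((x.appr N + p ^ N : ℕ) : ℤ_[p])) by ring]
    exact (PadicInt.nonarchimedean _ _).trans (max_le (by rwa [norm_neg]) hx))
  rw [show branch χ k x - branch χ k y = (branch χ k x - lValue χ _) +
    -(branch χ k y - lValue χ (k + (p - 1) * (x.appr N + p ^ N))) by ring]
  exact (IsUltrametricDist.norm_add_le_max _ _).trans (max_le h1 (by rwa [norm_neg]))

theorem continuous_branch (hfp : f.Coprime p) {χ : DirichletCharacter ℂ_[p] f} (hne : χ ≠ 1)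
    (k : ℕ) : Continuous (branch χ k) := by
  refine continuous_iff_continuousAt.2 fun x => Metric.continuousAt_iff.2 fun ε hε => ?_
  obtain ⟨N, hN⟩ := exists_pow_lt_of_lt_one hε (inv_prime_lt_one (p := p))
  refine ⟨((p : ℝ)⁻¹) ^ N, pow_pos (inv_pos.2 (by exact_mod_cast hp.out.pos)) N, fun y hy => ?_⟩
  rw [dist_eq_norm] at hy ⊢
  exact ((norm_branch_sub_branch_le hfp hne k hy.le).trans
    (pow_le_pow_of_le_one (by positivity) inv_prime_lt_one.le (Nat.le_succ N))).trans_lt hN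

/-- A continuous function is known from its values at the positive integers. -/
theorem eq_of_eq_on_natCast_succ {Y : Type*} [TopologicalSpace Y] [T2Space Y] {g h : ℤ_[p] → Y}
    (hg : Continuous g) (hh : Continuous h)
    (H : ∀ t : ℕ, g ((t + 1 : ℕ) : ℤ_[p]) = h ((t + 1 : ℕ) : ℤ_[p])) : g = h := by
  funext x
  have h1 := PadicInt.denseRange_natCast.equalizer (hg.comp (continuous_add_const (1 : ℤ_[p])))
    (hh.comp (continuous_add_const (1 : ℤ_[p]))) (funext fun t => by simpa using H t)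
  simpa using congrFun h1 (x - 1)

/-- **The branches as limits of the sums**, also at exponent zero. -/
theorem tendsto_riemannSum_branch (hfp : f.Coprime p) {χ : DirichletCharacter ℂ_[p] f}
    (hne : χ ≠ 1) (k t : ℕ) :
    Tendsto (fun n => riemannSum χ n (((k + (p - 1) * t : ℕ) : ℤ) - 1)) atTop
      (𝓝 (-branch χ k (t : ℤ_[p]))) := by
  rw [Metric.tendsto_atTop]
  intro ε hε
  obtain ⟨N, hN⟩ := exists_pow_lt_of_lt_one hε (inv_prime_lt_one (p := p))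
  have hN' : ((p : ℝ)⁻¹) ^ (N + 1) < ε :=
    (pow_le_pow_of_le_one (by positivity) inv_prime_lt_one.le (Nat.le_succ N)).trans_lt hN
  set m := k + (p - 1) * (t + p ^ N)
  have hm : 1 ≤ m := one_le_expo k
    (le_trans (Nat.one_le_pow _ _ hp.out.pos) (Nat.le_add_left _ _))
  obtain ⟨n₀, hn₀⟩ := (Metric.tendsto_atTop.1 (tendsto_riemannSum hfp hne hm)) _ hε
  refine ⟨n₀, fun n hn => ?_⟩
  have h1 := hn₀ n hn
  rw [dist_eq_norm] at h1 ⊢
  have h2 : ‖branch χ k (t : ℤ_[p]) - lValue χ m‖ ≤ ((p : ℝ)⁻¹) ^ (N + 1) :=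
    norm_branch_sub_le hfp hne hm (by
      rw [Nat.cast_add, sub_add_cancel_left, norm_neg, Nat.cast_pow, norm_pow, PadicInt.norm_p])
  have h3 : ‖riemannSum χ n (((k + (p - 1) * t : ℕ) : ℤ) - 1) - riemannSum χ n ((m : ℤ) - 1)‖
      ≤ ((p : ℝ)⁻¹) ^ (N + 1) :=
    norm_riemannSum_sub_le hfp χ n ⟨-1, by simp only [m]; push_cast; ring⟩
  rw [show riemannSum χ n (((k + (p - 1) * t : ℕ) : ℤ) - 1) - -branch χ k (t : ℤ_[p]) =
      (riemannSum χ n (((k + (p - 1) * t : ℕ) : ℤ) - 1) - riemannSum χ n ((m : ℤ) - 1)) +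
        ((riemannSum χ n ((m : ℤ) - 1) - -lValue χ m) +
          (branch χ k (t : ℤ_[p]) - lValue χ m)) by ring]
  exact (IsUltrametricDist.norm_add_le_max _ _).trans_lt (max_lt (h3.trans_lt hN')
    ((IsUltrametricDist.norm_add_le_max _ _).trans_lt (max_lt h1 (h2.trans_lt hN'))))

end FA.PadicDirichletL
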