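import Fermat.Agent.PadicDirichletL.LogEstimates

/-!
# The mean of `a log a - a` and the logarithm of `Γ_p`

With `F(a) = a log a - a` the means `p^(-n) ∑ F(x + c)`, `c < p^n`, `x + c` prime to `p`, increase
from `x` to `x + 1` as `log Γ_p` does. So `∑ log b ν_n(b)` tends to
`∑ χ(r) log Γ_p(r / f) + (1 - χ(p)) B_{1,χ} log f` (`tendsto_logDeriv`).
-/

set_option autoImplicit false
set_option linter.unusedSectionVars false
set_option linter.style.haveILetI false

noncomputable section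

open Finset Filter Topology FA.Brumer FA.GrossKoblitz
open FA.GrossRegulator (iwasawaLog gammaExp fracArg gammaExp_pos norm_gamma_pow_sub_one_le)

namespace FA.PadicDirichletL

variable {p : ℕ} [hp : Fact p.Prime] {f : ℕ} [NeZero f]

theorem norm_plog_sub_plog {α β : ℂ_[p]} (hα : ‖α - 1‖ ≤ rad p) (hβ : ‖β - 1‖ ≤ rad p) :
    ‖plog p α - plog p β‖ = ‖α - β‖ := by
  have hn := FA.GrossRegulator.norm_eq_one_of_disc hβ
  have hβ0 : β ≠ 0 := norm_ne_zero_iff.1 (by rw [hn]; exact one_ne_zero)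
  have hq : ‖α / β - 1‖ = ‖α - β‖ := by rw [div_sub_one hβ0, norm_div, hn, div_one]
  have hd : ‖α / β - 1‖ ≤ rad p := by
    rw [hq, show α - β = (α - 1) + -(β - 1) by ring]
    exact (IsUltrametricDist.norm_add_le_max _ _).trans (max_le hα (by rwa [norm_neg]))
  have h := plog_mul (p := p) hd hβ
  rw [div_mul_cancel₀ _ hβ0] at h
  rw [h, add_sub_cancel_right, norm_plog_eq hd, hq]

theorem neg_one_pow_gammaExp : (-1 : ℂ_[p]) ^ gammaExp p = 1 := by
  refine Even.neg_one_pow ?_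
  rcases hp.out.eq_two_or_odd' with rfl | h
  · exact ⟨2, rfl⟩
  · exact (h.tsub_odd odd_one).mul_right _

theorem iwasawaLog_neg_one : iwasawaLog p (-1 : ℂ_[p]) = 0 := by
  have hd : ‖(-1 : ℂ_[p]) ^ gammaExp p - 1‖ ≤ rad p := by
    rw [neg_one_pow_gammaExp, sub_self, norm_zero]
    exact rad_pos.le
  have h1 := norm_plog_eq (p := p) hd
  rw [neg_one_pow_gammaExp, sub_self, norm_zero, norm_eq_zero] at h1
  rw [iwasawaLog_of_pow gammaExp_pos hd, neg_one_pow_gammaExp, h1, zero_div]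

/-- The logarithm of `Γ_p`. -/
def logGamma (x : ℤ_[p]) : ℂ_[p] := iwasawaLog p (padicGamma p x)

theorem logGamma_eq (x : ℤ_[p]) :
    logGamma x = plog p (padicGamma p x ^ gammaExp p) / ((gammaExp p : ℕ) : ℂ_[p]) :=
  iwasawaLog_of_pow gammaExp_pos (norm_gamma_pow_sub_one_le x)

theorem continuous_logGamma : Continuous (logGamma (p := p)) := by
  have h : Continuous fun x : ℤ_[p] => plog p (padicGamma p x ^ gammaExp p) := by
    refine continuous_iff_continuousAt.2 fun x => tendsto_iff_norm_sub_tendsto_zero.2 ?_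
    simp only [norm_plog_sub_plog (norm_gamma_pow_sub_one_le _) (norm_gamma_pow_sub_one_le x)]
    exact tendsto_iff_norm_sub_tendsto_zero.1 ((continuous_padicGamma.pow _).tendsto x)
  exact (funext logGamma_eq : logGamma (p := p) = _) ▸ h.div_const _

theorem logGamma_zero : logGamma (0 : ℤ_[p]) = 0 := by
  rw [logGamma, padicGamma_zero, FA.GrossRegulator.iwasawaLog_one]

theorem logGamma_succ (x : ℕ) :
    logGamma ((x + 1 : ℕ) : ℤ_[p]) =
      logGamma (x : ℤ_[p]) + if p ∣ x then 0 else iwasawaLog p (x : ℂ_[p]) := by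
  have hiff : (p : ℤ_[p]) ∣ (x : ℤ_[p]) ↔ p ∣ x := by
    rw [← toZMod_eq_zero_iff, map_natCast, ZMod.natCast_eq_zero_iff]
  have hΓ := norm_gamma_pow_sub_one_le (p := p) (x : ℤ_[p])
  have hneg : ∀ z : ℂ_[p], ‖z ^ gammaExp p - 1‖ ≤ rad p →
      iwasawaLog p (-z) = iwasawaLog p z := fun z hz => by
    rw [neg_eq_neg_one_mul, iwasawaLog_mul_of_pow gammaExp_pos gammaExp_pos (by
      rw [neg_one_pow_gammaExp, sub_self, norm_zero]; exact rad_pos.le) hz, iwasawaLog_neg_one,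
      zero_add]
  rw [logGamma, logGamma, Nat.cast_succ]
  split_ifs with h
  · rw [padicGamma_add_one_of_dvd (hiff.2 h), hneg _ hΓ, add_zero]
  · have hx : ‖(-(x : ℂ_[p])) ^ gammaExp p - 1‖ ≤ rad p := by
      rw [neg_pow, neg_one_pow_gammaExp, one_mul]
      exact disc_natCast h
    rw [padicGamma_add_one_of_not_dvd (mt hiff.1 h), map_natCast,
      iwasawaLog_mul_of_pow gammaExp_pos gammaExp_pos hx hΓ, hneg _ (disc_natCast h), add_comm]

/-- `a log a - a`. -/
def gammaPrim (a : ℂ_[p]) : ℂ_[p] := a * iwasawaLog p a - a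

/-- The expansion of `F`. -/
theorem norm_gammaPrim_add_le {b : ℕ} (hb : ¬ p ∣ b) {h : ℂ_[p]} (hh : ‖h‖ ≤ rad p) :
    ‖gammaPrim ((b : ℂ_[p]) + h) - gammaPrim (b : ℂ_[p]) - iwasawaLog p (b : ℂ_[p]) * h‖ ≤
      (p : ℝ) ^ 2 * ‖h‖ ^ 2 := by
  have hb1 := FA.GrossKoblitz.norm_natCast_eq_one (p := p) hb
  have hb0 : (b : ℂ_[p]) ≠ 0 := norm_ne_zero_iff.1 (by rw [hb1]; exact one_ne_zero)
  have hrad : rad p ≤ 1 :=
    inv_le_one_of_one_le₀ (one_le_pow₀ (by exact_mod_cast hp.out.one_lt.le))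
  have he := norm_iwasawaLog_add_sub_le gammaExp_pos hb1 (disc_natCast hb) hh
  set d := iwasawaLog p ((b : ℂ_[p]) + h) - iwasawaLog p (b : ℂ_[p]) - h / b with hd
  rw [show gammaPrim ((b : ℂ_[p]) + h) - gammaPrim (b : ℂ_[p]) - iwasawaLog p (b : ℂ_[p]) * h =
      ((b : ℂ_[p]) + h) * d + h ^ 2 / b by
    simp only [gammaPrim, hd]; field_simp; ring]
  refine (IsUltrametricDist.norm_add_le_max _ _).trans (max_le ?_ ?_)
  · rw [norm_mul]
    exact (mul_le_of_le_one_left (norm_nonneg _) ((IsUltrametricDist.norm_add_le_max _ _).trans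
      (max_le hb1.le (hh.trans hrad)))).trans he
  · rw [norm_div, hb1, div_one, norm_pow]
    exact le_mul_of_one_le_left (by positivity)
      (one_le_pow₀ (by exact_mod_cast hp.out.one_lt.le))

/-- `F` is `1`-Lipschitz on the units. -/
theorem norm_gammaPrim_sub_le {b : ℕ} (hb : ¬ p ∣ b) {a : ℂ_[p]} (ha : ‖a - b‖ ≤ rad p) :
    ‖gammaPrim a - gammaPrim (b : ℂ_[p])‖ ≤ ‖a - b‖ := by
  obtain ⟨h, rfl⟩ : ∃ h, a = (b : ℂ_[p]) + h := ⟨a - b, by ring⟩
  rw [add_sub_cancel_left] at ha ⊢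
  have h1 : ‖iwasawaLog p (b : ℂ_[p]) * h‖ ≤ ‖h‖ := by
    rw [norm_mul]
    exact mul_le_of_le_one_left (norm_nonneg _) (norm_iwasawaLog_le_one (disc_natCast hb))
  have h2 : (p : ℝ) ^ 2 * ‖h‖ ^ 2 ≤ ‖h‖ := by
    rw [pow_two ‖h‖, ← mul_assoc]
    refine mul_le_of_le_one_left (norm_nonneg _) ((mul_le_mul_of_nonneg_left ha
      (by positivity)).trans ((mul_rad_le (p := p)).trans inv_prime_lt_one.le))
  rw [show gammaPrim ((b : ℂ_[p]) + h) - gammaPrim (b : ℂ_[p]) =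
    (gammaPrim ((b : ℂ_[p]) + h) - gammaPrim (b : ℂ_[p]) - iwasawaLog p (b : ℂ_[p]) * h) +
      iwasawaLog p (b : ℂ_[p]) * h by ring]
  exact (IsUltrametricDist.norm_add_le_max _ _).trans
    (max_le ((norm_gammaPrim_add_le hb ha).trans h2) h1)

theorem inv_prime_pow_le_rad {n : ℕ} (hn : 3 ≤ n) : ((p : ℝ)⁻¹) ^ n ≤ rad p :=
  (pow_le_pow_of_le_one (by positivity) inv_prime_lt_one.le hn).trans_eq (inv_pow _ _)

/-- The mean of `F` over `x + c`. -/
def shiftMean (n x : ℕ) : ℂ_[p] :=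
  ((p : ℂ_[p]) ^ n)⁻¹ * ∑ c ∈ range (p ^ n),
    if p ∣ x + c then 0 else gammaPrim ((x + c : ℕ) : ℂ_[p])

/-- **The increments are those of `log Γ_p`.** -/
theorem norm_shiftMean_sub_le {n : ℕ} (hn : 3 ≤ n) : ∀ x : ℕ,
    ‖shiftMean (p := p) n x - shiftMean n 0 - logGamma (x : ℤ_[p])‖ ≤
      (p : ℝ) ^ 2 * ((p : ℝ)⁻¹) ^ n
  | 0 => by
    rw [sub_self, Nat.cast_zero, logGamma_zero, sub_zero, norm_zero]
    positivity
  | x + 1 => by
    set w : ℕ → ℂ_[p] := fun y => if p ∣ y then 0 else gammaPrim (y : ℂ_[p])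
    have hP : (p : ℂ_[p]) ^ n ≠ 0 := pow_ne_zero n natCast_prime_ne_zero
    have hdef : ∀ y, shiftMean (p := p) n y =
        ((p : ℂ_[p]) ^ n)⁻¹ * ∑ c ∈ range (p ^ n), w (y + c) := fun y => rfl
    have hstep : shiftMean (p := p) n (x + 1) - shiftMean n x =
        ((p : ℂ_[p]) ^ n)⁻¹ * (w (x + p ^ n) - w x) := by
      rw [hdef, hdef, ← mul_sub, ← sum_sub_distrib]
      congr 1
      rw [sum_congr rfl fun c _ => show w (x + 1 + c) - w (x + c) =
        (fun i => w (x + i)) (c + 1) - (fun i => w (x + i)) c by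
          simp only [add_assoc, add_comm 1 c], sum_range_sub fun i => w (x + i), Nat.add_zero]
    have key : ‖shiftMean (p := p) n (x + 1) - shiftMean n x -
        (logGamma ((x + 1 : ℕ) : ℤ_[p]) - logGamma (x : ℤ_[p]))‖ ≤
          (p : ℝ) ^ 2 * ((p : ℝ)⁻¹) ^ n := by
      rw [hstep, logGamma_succ, add_sub_cancel_left]
      have hdvd : p ∣ x + p ^ n ↔ p ∣ x :=
        (Nat.dvd_add_iff_left (dvd_pow_self p (by omega))).symm
      by_cases hx : p ∣ x
      · simp only [w, if_pos hx, if_pos (hdvd.2 hx), sub_self, mul_zero, norm_zero]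
        positivity
      · simp only [w, if_neg hx, if_neg (mt hdvd.1 hx)]
        have hh : ‖(p : ℂ_[p]) ^ n‖ ≤ rad p := (norm_prime_pow n).trans_le (inv_prime_pow_le_rad hn)
        have h := norm_gammaPrim_add_le hx hh
        rw [Nat.cast_add, Nat.cast_pow, show ((p : ℂ_[p]) ^ n)⁻¹ *
            (gammaPrim ((x : ℂ_[p]) + (p : ℂ_[p]) ^ n) - gammaPrim (x : ℂ_[p])) -
            iwasawaLog p (x : ℂ_[p]) = ((p : ℂ_[p]) ^ n)⁻¹ *
            (gammaPrim ((x : ℂ_[p]) + (p : ℂ_[p]) ^ n) - gammaPrim (x : ℂ_[p]) -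
              iwasawaLog p (x : ℂ_[p]) * (p : ℂ_[p]) ^ n) by field_simp,
          norm_mul, norm_inv, norm_prime_pow]
        rw [norm_prime_pow] at h
        rw [inv_mul_le_iff₀ (pow_pos (inv_pos.2 (by exact_mod_cast hp.out.pos)) n)]
        exact h.trans_eq (by ring)
    rw [show shiftMean (p := p) n (x + 1) - shiftMean n 0 - logGamma ((x + 1 : ℕ) : ℤ_[p]) =
      (shiftMean (p := p) n (x + 1) - shiftMean n x -
        (logGamma ((x + 1 : ℕ) : ℤ_[p]) - logGamma (x : ℤ_[p]))) +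
      (shiftMean (p := p) n x - shiftMean n 0 - logGamma (x : ℤ_[p])) by ring]
    exact (IsUltrametricDist.norm_add_le_max _ _).trans
      (max_le key (norm_shiftMean_sub_le hn x))

theorem mul_fracArg (hfp : f.Coprime p) (r : ZMod f) :
    (f : ℤ_[p]) * fracArg r = (r.val : ℤ_[p]) := by
  rw [fracArg, mul_left_comm, Ring.mul_inverse_cancel _ (by
    rw [PadicInt.isUnit_iff, PadicInt.norm_natCast_eq_one_iff]
    exact hfp.symm), mul_one]

/-- **The mean of `F` against `χ`.** -/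
theorem norm_unitMean_gammaPrim_le (hfp : f.Coprime p) {χ : DirichletCharacter ℂ_[p] f}
    (hne : χ ≠ 1) {n : ℕ} (hn : 3 ≤ n) :
    ‖unitMean χ (fun a => gammaPrim (a : ℂ_[p])) n -
      iwasawaLog p (f : ℂ_[p]) * unitMean χ (fun a => (a : ℂ_[p])) n -
      ∑ r : ZMod f, χ r * logGamma (((fracArg r : ℤ_[p]).appr (2 * n) : ℕ) : ℤ_[p])‖ ≤
      (p : ℝ) ^ 2 * ((p : ℝ)⁻¹) ^ n := by
  set N : ZMod f → ℕ := fun r => (fracArg r : ℤ_[p]).appr (2 * n)
  have hf1 := norm_level (p := p) hfp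
  have hf0 : (f : ℂ_[p]) ≠ 0 := Nat.cast_ne_zero.2 (NeZero.ne f)
  have hP : (p : ℂ_[p]) ^ n ≠ 0 := pow_ne_zero n natCast_prime_ne_zero
  have hpos : (0 : ℝ) < ((p : ℝ)⁻¹) ^ n := pow_pos (inv_pos.2 (by exact_mod_cast hp.out.pos)) n
  have hone : (1 : ℝ) ≤ (p : ℝ) ^ 2 := one_le_pow₀ (by exact_mod_cast hp.out.one_lt.le)
  -- `f N_r` is near `r`
  have hnear : ∀ r, ‖((f * N r : ℕ) : ℤ_[p]) - (r.val : ℤ_[p])‖ ≤ ((p : ℝ)⁻¹) ^ (2 * n) :=
    fun r => by
    rw [Nat.cast_mul, ← mul_fracArg hfp r, ← mul_sub, norm_mul, norm_sub_rev]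
    refine (mul_le_of_le_one_left (norm_nonneg _) (PadicInt.norm_le_one _)).trans ?_
    rw [inv_pow, ← zpow_natCast, ← zpow_neg, PadicInt.norm_le_pow_iff_mem_span_pow]
    exact PadicInt.appr_spec _ _
  have hnearC : ∀ r c, ‖((r.val + f * c : ℕ) : ℂ_[p]) - ((f * (N r + c) : ℕ) : ℂ_[p])‖ ≤
      ((p : ℝ)⁻¹) ^ (2 * n) := fun r c => by
    rw [← map_natCast (toCp p), ← map_natCast (toCp p) (f * (N r + c)), ← map_sub, norm_toCp,
      norm_sub_rev]
    refine le_of_eq_of_le (congrArg norm ?_) (hnear r)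
    push_cast
    ring
  have hdiv : ∀ r c, p ∣ r.val + f * c ↔ p ∣ N r + c := fun r c => by
    have hlt : ‖((r.val + f * c : ℕ) : ℂ_[p]) - ((f * (N r + c) : ℕ) : ℂ_[p])‖ < 1 :=
      (hnearC r c).trans_lt (pow_lt_one₀ (by positivity) inv_prime_lt_one (by omega))
    rw [← map_natCast (toCp p), ← map_natCast (toCp p) (f * (N r + c)), ← map_sub, norm_toCp] at hlt
    have h := toZMod_eq_of_norm_lt hlt
    rw [map_natCast, map_natCast] at h
    rw [← ZMod.natCast_eq_zero_iff, h, ZMod.natCast_eq_zero_iff,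
      (Nat.Coprime.dvd_mul_left hfp.symm)]
  have hterm : ∀ r c,
      ‖(if p ∣ r.val + f * c then 0 else
          (f : ℂ_[p])⁻¹ * (gammaPrim ((r.val + f * c : ℕ) : ℂ_[p]) -
            iwasawaLog p (f : ℂ_[p]) * ((r.val + f * c : ℕ) : ℂ_[p]))) -
        (if p ∣ N r + c then 0 else gammaPrim ((N r + c : ℕ) : ℂ_[p]))‖ ≤
      ((p : ℝ)⁻¹) ^ (2 * n) := fun r c => by
    by_cases h : p ∣ N r + c
    · rw [if_pos ((hdiv r c).2 h), if_pos h, sub_self, norm_zero]
      positivity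
    rw [if_neg (mt (hdiv r c).1 h), if_neg h]
    set y := N r + c
    set A := ((r.val + f * c : ℕ) : ℂ_[p])
    have hfy : ¬ p ∣ f * y := fun h' => h ((Nat.Coprime.dvd_mul_left hfp.symm).1 h')
    have hd : ‖A - ((f * y : ℕ) : ℂ_[p])‖ ≤ rad p := (hnearC r c).trans
      ((pow_le_pow_of_le_one (by positivity) inv_prime_lt_one.le (by omega : n ≤ 2 * n)).trans
        (inv_prime_pow_le_rad hn))
    have hsplit : gammaPrim ((f * y : ℕ) : ℂ_[p]) = (f : ℂ_[p]) * gammaPrim (y : ℂ_[p]) +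
        iwasawaLog p (f : ℂ_[p]) * ((f * y : ℕ) : ℂ_[p]) := by
      rw [gammaPrim, gammaPrim, Nat.cast_mul, iwasawaLog_mul_of_pow gammaExp_pos gammaExp_pos
        (disc_natCast (not_dvd_level hfp)) (disc_natCast h)]
      ring
    rw [show (f : ℂ_[p])⁻¹ * (gammaPrim A - iwasawaLog p (f : ℂ_[p]) * A) - gammaPrim (y : ℂ_[p]) =
        (f : ℂ_[p])⁻¹ * ((gammaPrim A - gammaPrim ((f * y : ℕ) : ℂ_[p])) -
          iwasawaLog p (f : ℂ_[p]) * (A - ((f * y : ℕ) : ℂ_[p]))) by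
        rw [hsplit]; field_simp; ring,
      norm_mul, norm_inv, hf1, inv_one, one_mul, sub_eq_add_neg]
    refine (IsUltrametricDist.norm_add_le_max _ _).trans
      (max_le ((norm_gammaPrim_sub_le hfy hd).trans (hnearC r c)) ?_)
    rw [norm_neg, norm_mul]
    exact (mul_le_of_le_one_left (norm_nonneg _)
      (norm_iwasawaLog_le_one (disc_natCast (not_dvd_level hfp)))).trans (hnearC r c)
  -- the blocks
  have hblock : unitMean χ (fun a => gammaPrim (a : ℂ_[p])) n -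
      iwasawaLog p (f : ℂ_[p]) * unitMean χ (fun a => (a : ℂ_[p])) n -
      ∑ r : ZMod f, χ r * shiftMean n (N r) =
      ∑ r : ZMod f, χ r * (((p : ℂ_[p]) ^ n)⁻¹ * ∑ c ∈ range (p ^ n),
        ((if p ∣ r.val + f * c then 0 else
          (f : ℂ_[p])⁻¹ * (gammaPrim ((r.val + f * c : ℕ) : ℂ_[p]) -
            iwasawaLog p (f : ℂ_[p]) * ((r.val + f * c : ℕ) : ℂ_[p]))) -
        (if p ∣ N r + c then 0 else gammaPrim ((N r + c : ℕ) : ℂ_[p])))) := by
    rw [unitMean, unitMean, Nat.cast_mul, Nat.cast_pow, sum_filter, sum_filter,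
      sum_range_blocks f, sum_range_blocks f, sum_range_eq_sum_zmod, sum_range_eq_sum_zmod,
      mul_left_comm, ← mul_sub, mul_sum, ← sum_sub_distrib, mul_sum, ← sum_sub_distrib]
    refine sum_congr rfl fun r _ => ?_
    simp only [shiftMean, mul_sum, ← sum_sub_distrib]
    refine sum_congr rfl fun c _ => ?_
    rw [show ((r.val + f * c : ℕ) : ZMod f) = r by simp, mul_inv]
    split_ifs <;> ring
  have hb : ‖unitMean χ (fun a => gammaPrim (a : ℂ_[p])) n -
      iwasawaLog p (f : ℂ_[p]) * unitMean χ (fun a => (a : ℂ_[p])) n -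
      ∑ r : ZMod f, χ r * shiftMean n (N r)‖ ≤ (p : ℝ) ^ 2 * ((p : ℝ)⁻¹) ^ n := by
    rw [hblock]
    refine IsUltrametricDist.norm_sum_le_of_forall_le_of_nonneg (by positivity) fun r _ => ?_
    rw [norm_mul, norm_mul, norm_inv, norm_prime_pow]
    refine (mul_le_of_le_one_left (by positivity) (DirichletCharacter.norm_le_one χ r)).trans ?_
    refine le_trans ?_ (le_mul_of_one_le_left hpos.le hone)
    rw [inv_mul_le_iff₀ hpos, ← pow_add, ← two_mul]
    exact IsUltrametricDist.norm_sum_le_of_forall_le_of_nonneg (by positivity) fun c _ => hterm r c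
  have hg : ‖(∑ r : ZMod f, χ r * shiftMean n (N r)) -
      ∑ r : ZMod f, χ r * logGamma ((N r : ℕ) : ℤ_[p])‖ ≤ (p : ℝ) ^ 2 * ((p : ℝ)⁻¹) ^ n := by
    have h0 : ∑ r : ZMod f, χ r * shiftMean (p := p) n 0 = 0 := by
      rw [← sum_mul, MulChar.sum_eq_zero_of_ne_one hne, zero_mul]
    rw [← sub_zero ((∑ r : ZMod f, χ r * shiftMean n (N r)) - _), ← h0, ← sum_sub_distrib,
      ← sum_sub_distrib]
    refine IsUltrametricDist.norm_sum_le_of_forall_le_of_nonneg (by positivity) fun r _ => ?_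
    rw [show χ r * shiftMean n (N r) - χ r * logGamma ((N r : ℕ) : ℤ_[p]) - χ r * shiftMean n 0 =
      χ r * (shiftMean n (N r) - shiftMean n 0 - logGamma ((N r : ℕ) : ℤ_[p])) by ring, norm_mul]
    exact (mul_le_of_le_one_left (norm_nonneg _) (DirichletCharacter.norm_le_one χ r)).trans
      (norm_shiftMean_sub_le hn (N r))
  have h := (IsUltrametricDist.norm_add_le_max _ _).trans (max_le hb hg)
  rwa [sub_add_sub_cancel] at h

theorem tendsto_natCast_appr (x : ℤ_[p]) :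
    Tendsto (fun n => ((x.appr (2 * n) : ℕ) : ℤ_[p])) atTop (𝓝 x) := by
  refine tendsto_iff_norm_sub_tendsto_zero.2 (squeeze_zero (fun _ => norm_nonneg _) (fun n => ?_)
    (tendsto_inv_prime_pow (p := p)))
  rw [norm_sub_rev]
  refine le_trans ?_ (pow_le_pow_of_le_one (by positivity) inv_prime_lt_one.le
    (by omega : n ≤ 2 * n))
  rw [inv_pow, ← zpow_natCast, ← zpow_neg, PadicInt.norm_le_pow_iff_mem_span_pow]
  exact PadicInt.appr_spec _ _

/-- The derivative `∑ χ(r) log Γ_p(r/f) + (1 - χ(p)) B_{1,χ} log f`. -/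
def logDeriv' (χ : DirichletCharacter ℂ_[p] f) : ℂ_[p] :=
  (∑ r : ZMod f, χ r * logGamma (fracArg r : ℤ_[p])) +
    (1 - χ p) * bernChar χ 1 * iwasawaLog p (f : ℂ_[p])

/-- **The limit of `∑ log b ν_n(b)`.** -/
theorem tendsto_logDeriv (hfp : f.Coprime p) {χ : DirichletCharacter ℂ_[p] f} (hne : χ ≠ 1) :
    Tendsto (fun n => ∑ b ∈ unitRes p n, iwasawaLog p (b : ℂ_[p]) * nu χ n b) atTop
      (𝓝 (logDeriv' χ)) := by
  have hb := (tendsto_inv_prime_pow (p := p)).const_mul ((p : ℝ) ^ 2)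
  rw [mul_zero] at hb
  have h1 := (tendsto_finsetSum (univ : Finset (ZMod f)) fun r _ =>
    (((continuous_logGamma (p := p)).tendsto _).comp
      (tendsto_natCast_appr (fracArg r : ℤ_[p]))).const_mul (χ r))
  have h2 := tendsto_unitMean χ (le_refl 1)
  simp only [pow_one, Nat.sub_self, pow_zero, mul_one] at h2
  have h3 : Tendsto (fun n => unitMean χ (fun a => gammaPrim (a : ℂ_[p])) n) atTop
      (𝓝 (logDeriv' χ)) := by
    have he : ∀ᶠ n in atTop, ‖unitMean χ (fun a => gammaPrim (a : ℂ_[p])) n -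
        iwasawaLog p (f : ℂ_[p]) * unitMean χ (fun a => (a : ℂ_[p])) n -
        ∑ r : ZMod f, χ r * logGamma (((fracArg r : ℤ_[p]).appr (2 * n) : ℕ) : ℤ_[p])‖ ≤
        (p : ℝ) ^ 2 * ((p : ℝ)⁻¹) ^ n := by
      filter_upwards [eventually_ge_atTop 3] with n hn
      exact norm_unitMean_gammaPrim_le hfp hne hn
    have h := ((squeeze_zero_norm' he hb).add h1).add (h2.mul_const (iwasawaLog p (f : ℂ_[p])))
    rw [zero_add] at h
    exact h.congr fun n => by simp only [Function.comp_apply]; ring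
  have he : ∀ᶠ n in atTop, ‖(∑ b ∈ unitRes p n, iwasawaLog p (b : ℂ_[p]) * nu χ n b) -
      unitMean χ (fun a => gammaPrim (a : ℂ_[p])) n‖ ≤ (p : ℝ) ^ 2 * ((p : ℝ)⁻¹) ^ n := by
    filter_upwards [eventually_ge_atTop 3] with n hn
    rw [norm_sub_rev]
    refine norm_unitMean_sub_le hfp hne (by positivity) (by omega) fun b c hb => ?_
    have hh : ‖(p : ℂ_[p]) ^ n * (c : ℂ_[p])‖ ≤ ((p : ℝ)⁻¹) ^ n := by
      rw [norm_mul, norm_prime_pow]
      exact mul_le_of_le_one_right (by positivity) (IsUltrametricDist.norm_natCast_le_one _ _)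
    push_cast
    refine (norm_gammaPrim_add_le hb (hh.trans (inv_prime_pow_le_rad hn))).trans ?_
    rw [mul_comm 2 n, pow_mul]
    exact mul_le_mul_of_nonneg_left (pow_le_pow_left₀ (norm_nonneg _) hh 2) (by positivity)
  have h := (squeeze_zero_norm' he hb).add h3
  simpa using h

end FA.PadicDirichletL
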