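import Fermat.Agent.GrossRegulator.IwasawaLog
import Fermat.Agent.PadicDirichletL.Branch

/-!
# Estimates for Iwasawa's logarithm on the units

`log z = z - 1 + O((z - 1)^2)` on the disc, so `(z^M - 1) / M` tends to `log z` as `M = a p^N`
tends to zero, and `log (b + h) = log b + h / b + O(h^2)` at a unit `b`.
-/

set_option autoImplicit false
set_option linter.unusedSectionVars false
set_option linter.style.haveILetI false

noncomputable section

open Finset Filter Topology FA.Brumer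
open FA.GrossRegulator (iwasawaLog Near gammaExp)

namespace FA.PadicDirichletL

variable {p : ℕ} [hp : Fact p.Prime]

theorem norm_pexp_sub_linear_le {x : ℂ_[p]} (hx : Small p x) :
    ‖pexp x - 1 - x‖ ≤ ((p : ℝ) * ‖x‖) ^ 2 := by
  have h := ((summable_norm_expTerm (p := p) hx).of_norm).sum_add_tsum_nat_add 2
  rw [Finset.sum_range_succ, Finset.sum_range_one] at h
  rw [pexp, ← h, show expTerm x 0 = (1 : ℂ_[p]) by simp [expTerm],
    show expTerm x 1 = x by simp [expTerm], add_sub_right_comm, add_sub_cancel_left,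
    add_sub_cancel_left]
  exact IsUltrametricDist.norm_tsum_le_of_forall_le_of_nonneg (by positivity) fun n =>
    (norm_expTerm_le p x _).trans
      (pow_le_pow_of_le_one (by positivity) hx.le (Nat.le_add_left 2 n))

/-- **The logarithm preserves the distance to `1`.** -/
theorem norm_plog_eq {z : ℂ_[p]} (h : ‖z - 1‖ ≤ rad p) : ‖plog p z‖ = ‖z - 1‖ := by
  conv_rhs => rw [← pexp_plog h]
  set x := plog p z
  rcases eq_or_ne x 0 with hx | hx
  · rw [hx, pexp_zero, sub_self, norm_zero]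
  have hlt : ‖pexp x - 1 - x‖ < ‖x‖ :=
    (norm_pexp_sub_le (norm_plog_le z)).trans_lt
      (mul_lt_of_lt_one_left (norm_pos_iff.2 hx) inv_prime_lt_one)
  conv_rhs => rw [show pexp x - 1 = x + (pexp x - 1 - x) by ring,
    IsUltrametricDist.norm_add_eq_max_of_norm_ne_norm hlt.ne', max_eq_left hlt.le]

theorem norm_plog_sub_le {z : ℂ_[p]} (h : ‖z - 1‖ ≤ rad p) :
    ‖plog p z - (z - 1)‖ ≤ (p : ℝ) ^ 2 * ‖z - 1‖ ^ 2 := by
  have h1 := norm_pexp_sub_linear_le (small_of_le (p := p) (norm_plog_le z))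
  rw [pexp_plog h, mul_pow, norm_plog_eq h] at h1
  rwa [norm_sub_rev]

/-- An algebraic number of absolute value one has a power in the disc. -/
theorem exists_pow_disc {z : ℂ_[p]} (halg : IsAlgebraic ℚ z) (h1 : ‖z‖ = 1) :
    ∃ a : ℕ, 0 < a ∧ ‖z ^ a - 1‖ ≤ rad p := by
  obtain ⟨a, b, ha, hab⟩ := FA.GrossRegulator.exists_near_one
    (norm_ne_zero_iff.1 (by rw [h1]; exact one_ne_zero)) halg
  have hb : b = 0 := by
    have h2 := FA.GrossRegulator.norm_eq_one_of_disc hab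
    rw [norm_mul, norm_pow, h1, one_pow, one_mul] at h2
    refine FA.GrossRegulator.prime_zpow_injective (p := p) ?_
    simp only [h2, zpow_zero, norm_one]
  rw [hb, zpow_zero, mul_one] at hab
  exact ⟨a, ha, hab⟩

theorem near_of_pow {z : ℂ_[p]} {a : ℕ} (ha : 0 < a) (h : ‖z ^ a - 1‖ ≤ rad p) : Near z a 0 :=
  ⟨ha, by rwa [zpow_zero, mul_one]⟩

theorem iwasawaLog_of_pow {z : ℂ_[p]} {a : ℕ} (ha : 0 < a) (h : ‖z ^ a - 1‖ ≤ rad p) :
    iwasawaLog p z = plog p (z ^ a) / (a : ℂ_[p]) := by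
  rw [FA.GrossRegulator.iwasawaLog_eq (near_of_pow ha h), zpow_zero, mul_one]

/-- The logarithm is additive where it has a power in the disc. -/
theorem iwasawaLog_mul_of_pow {x y : ℂ_[p]} {a c : ℕ} (ha : 0 < a) (hc : 0 < c)
    (hx : ‖x ^ a - 1‖ ≤ rad p) (hy : ‖y ^ c - 1‖ ≤ rad p) :
    iwasawaLog p (x * y) = iwasawaLog p x + iwasawaLog p y :=
  (FA.GrossRegulator.iwasawaLog_mul (near_of_pow ha hx) (near_of_pow hc hy)).2

/-- **`(z^M - 1) / M` tends to the logarithm.** -/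
theorem tendsto_pow_sub_one_div {z : ℂ_[p]} {a : ℕ} (ha : 0 < a) (h : ‖z ^ a - 1‖ ≤ rad p) :
    Tendsto (fun N => (z ^ (a * p ^ N) - 1) / ((a * p ^ N : ℕ) : ℂ_[p])) atTop
      (𝓝 (iwasawaLog p z)) := by
  have ha0 : (a : ℂ_[p]) ≠ 0 := Nat.cast_ne_zero.2 ha.ne'
  have hbound : ∀ N, ‖(z ^ (a * p ^ N) - 1) / ((a * p ^ N : ℕ) : ℂ_[p]) - iwasawaLog p z‖ ≤
      (p : ℝ) ^ 2 * ‖plog p (z ^ a)‖ ^ 2 / ‖(a : ℂ_[p])‖ * ((p : ℝ)⁻¹) ^ N := fun N => by
    obtain ⟨hd, he⟩ := FA.GrossRegulator.plog_pow h (p ^ N)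
    rw [← pow_mul] at hd he
    set y := z ^ (a * p ^ N)
    have hne : ((a * p ^ N : ℕ) : ℂ_[p]) ≠ 0 :=
      Nat.cast_ne_zero.2 (Nat.mul_ne_zero ha.ne' (pow_ne_zero N hp.out.ne_zero))
    have hlog : iwasawaLog p z = plog p y / ((a * p ^ N : ℕ) : ℂ_[p]) := by
      rw [iwasawaLog_of_pow ha h, he, Nat.cast_mul, mul_comm (a : ℂ_[p]),
        mul_div_mul_left _ _ (Nat.cast_ne_zero.2 (pow_ne_zero N hp.out.ne_zero))]
    have h1 := norm_plog_sub_le hd
    rw [← norm_plog_eq hd, he, norm_mul, Nat.cast_pow, norm_prime_pow, mul_pow] at h1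
    rw [hlog, ← sub_div, norm_div, norm_sub_rev, Nat.cast_mul, Nat.cast_pow, norm_mul,
      norm_prime_pow, div_le_iff₀ (mul_pos (norm_pos_iff.2 ha0)
        (pow_pos (inv_pos.2 (by exact_mod_cast hp.out.pos)) N))]
    rw [he, Nat.cast_pow]
    refine h1.trans_eq ?_
    field_simp
  exact tendsto_iff_norm_sub_tendsto_zero.2 (squeeze_zero (fun _ => norm_nonneg _) hbound
    (by simpa using tendsto_inv_prime_pow.const_mul _))

/-- A power of every natural number prime to `p` is in the disc. -/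
theorem disc_natCast {b : ℕ} (hb : ¬ p ∣ b) : ‖(b : ℂ_[p]) ^ gammaExp p - 1‖ ≤ rad p := by
  refine (norm_pow_totient_sub_one_le hb 2).trans_eq ?_
  rw [inv_pow]
  rfl

theorem norm_gammaExp : ‖((gammaExp p : ℕ) : ℂ_[p])‖ = ((p : ℝ)⁻¹) ^ 2 := by
  rw [gammaExp, Nat.cast_mul, Nat.cast_pow, norm_mul, norm_prime_pow,
    FA.GrossKoblitz.norm_natCast_eq_one (Nat.not_dvd_of_pos_of_lt
      (Nat.sub_pos_of_lt hp.out.one_lt) (Nat.sub_lt hp.out.pos one_pos)), one_mul]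

theorem norm_iwasawaLog_le_one {z : ℂ_[p]} (h : ‖z ^ gammaExp p - 1‖ ≤ rad p) :
    ‖iwasawaLog p z‖ ≤ 1 := by
  rw [iwasawaLog_of_pow FA.GrossRegulator.gammaExp_pos h, norm_div, norm_gammaExp, div_le_one
    (pow_pos (inv_pos.2 (by exact_mod_cast hp.out.pos)) 2)]
  refine (norm_plog_le _).trans ?_
  rw [rad, inv_pow]
  exact inv_anti₀ (pow_pos (by exact_mod_cast hp.out.pos) 2)
    (pow_le_pow_right₀ (by exact_mod_cast hp.out.one_lt.le) (by norm_num))

/-- **The expansion at a unit.** -/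
theorem norm_iwasawaLog_add_sub_le {b h : ℂ_[p]} {a : ℕ} (ha : 0 < a) (hb1 : ‖b‖ = 1)
    (hb : ‖b ^ a - 1‖ ≤ rad p) (hh : ‖h‖ ≤ rad p) :
    ‖iwasawaLog p (b + h) - iwasawaLog p b - h / b‖ ≤ (p : ℝ) ^ 2 * ‖h‖ ^ 2 := by
  have hb0 : b ≠ 0 := norm_ne_zero_iff.1 (by rw [hb1]; exact one_ne_zero)
  have hn : ‖(1 + h / b) - 1‖ = ‖h‖ := by rw [add_sub_cancel_left, norm_div, hb1, div_one]
  have hz : ‖(1 + h / b) - 1‖ ≤ rad p := by rwa [hn]
  have h1 := iwasawaLog_mul_of_pow ha one_pos hb (y := 1 + h / b) (by rwa [pow_one])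
  rw [show b * (1 + h / b) = b + h by field_simp, FA.GrossRegulator.iwasawaLog_of_disc hz] at h1
  rw [h1, add_sub_cancel_left]
  have h2 := norm_plog_sub_le hz
  rw [hn] at h2
  simpa only [add_sub_cancel_left] using h2

end FA.PadicDirichletL
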