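import Fermat.Agent.PadicDirichletL.LogEstimates
import Mathlib.RingTheory.RootsOfUnity.PrimitiveRoots

/-!
# The logarithm of `1 - η` as a limit of Riemann sums

If all `1 - η ζ` are units, `ζ` of `p`-power order, then
`∑ η^b / (b (1 - η^(p^n)))`, `b < p^n` prime to `p`, tends to `p⁻¹ log (1 - η^p) - log (1 - η)`
(`norm_logSum_le`): expand `((1 - η ζ)^M - 1) / M` and let `M → 0`.
-/

set_option autoImplicit false
set_option linter.unusedSectionVars false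
set_option linter.style.haveILetI false

noncomputable section

open Finset Filter Topology FA.Brumer
open FA.GrossRegulator (iwasawaLog)
open scoped Classical

namespace FA.PadicDirichletL

variable {p : ℕ} [hp : Fact p.Prime]

theorem exists_primitive_pow (n : ℕ) : ∃ ζ : ℂ_[p], IsPrimitiveRoot ζ (p ^ n) := by
  haveI : NeZero ((p ^ n : ℕ) : ℂ_[p]) := ⟨Nat.cast_ne_zero.2 (pow_ne_zero n hp.out.ne_zero)⟩
  exact HasEnoughRootsOfUnity.exists_primitiveRoot ℂ_[p] (p ^ n)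

variable (p) in
/-- The roots of unity of order dividing `p ^ n`. -/
def primeRoots (n : ℕ) : Finset ℂ_[p] := Polynomial.nthRootsFinset (p ^ n) (1 : ℂ_[p])

theorem mem_primeRoots {n : ℕ} {ζ : ℂ_[p]} : ζ ∈ primeRoots p n ↔ ζ ^ p ^ n = 1 :=
  Polynomial.mem_nthRootsFinset (pow_pos hp.out.pos n) _

theorem sum_primeRoots_pow (n d : ℕ) :
    ∑ ζ ∈ primeRoots p n, ζ ^ d = if p ^ n ∣ d then ((p ^ n : ℕ) : ℂ_[p]) else 0 := by
  obtain ⟨z, hz⟩ := exists_primitive_pow (p := p) n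
  split_ifs with h
  · rw [sum_congr rfl (g := fun _ => (1 : ℂ_[p])) fun ζ hζ => by
      obtain ⟨e, rfl⟩ := h
      rw [pow_mul, mem_primeRoots.1 hζ, one_pow], sum_const, nsmul_one, primeRoots,
      hz.card_nthRootsFinset]
  · have hne : z ^ d ≠ 1 := fun e => h (hz.dvd_of_pow_eq_one d e)
    have hz0 : z ≠ 0 := hz.ne_zero (pow_ne_zero n hp.out.ne_zero)
    have hs : z ^ d * ∑ ζ ∈ primeRoots p n, ζ ^ d = ∑ ζ ∈ primeRoots p n, ζ ^ d := by
      rw [mul_sum]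
      refine sum_nbij' (fun ζ => z * ζ) (fun ζ => z⁻¹ * ζ) (fun ζ hζ => ?_) (fun ζ hζ => ?_)
        (fun ζ _ => inv_mul_cancel_left₀ hz0 ζ) (fun ζ _ => mul_inv_cancel_left₀ hz0 ζ)
        fun ζ _ => (mul_pow z ζ d).symm
      · rw [mem_primeRoots] at hζ ⊢; rw [mul_pow, hz.pow_eq_one, hζ, one_mul]
      · rw [mem_primeRoots] at hζ ⊢; rw [mul_pow, inv_pow, hz.pow_eq_one, hζ, inv_one, one_mul]
    exact (mul_left_eq_self₀.1 hs).resolve_left hne

/-- **Picking a residue class.** -/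
theorem sum_primeRoots_pick {n b : ℕ} (hb : b < p ^ n) (s : Finset ℕ) (c : ℕ → ℂ_[p]) :
    ((p ^ n : ℕ) : ℂ_[p])⁻¹ * ∑ ζ ∈ primeRoots p n, (ζ ^ b)⁻¹ * ∑ j ∈ s, c j * ζ ^ j =
      ∑ j ∈ s.filter (· % p ^ n = b), c j := by
  have hP : ((p ^ n : ℕ) : ℂ_[p]) ≠ 0 := Nat.cast_ne_zero.2 (pow_ne_zero n hp.out.ne_zero)
  simp only [mul_sum]
  rw [sum_comm, sum_filter]
  refine sum_congr rfl fun j _ => ?_
  rw [← mul_sum, sum_congr rfl (g := fun ζ => c j * ζ ^ (j + (p ^ n - b))) fun ζ hζ => by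
    have h1 := mem_primeRoots.1 hζ
    rw [show (ζ ^ b)⁻¹ = ζ ^ (p ^ n - b) from inv_eq_of_mul_eq_one_right (by
      rw [← pow_add, Nat.add_sub_cancel' hb.le, h1]), pow_add]
    ring, ← mul_sum, sum_primeRoots_pow]
  have hiff : p ^ n ∣ j + (p ^ n - b) ↔ j % p ^ n = b := by
    rw [← Nat.mod_eq_of_lt hb, ← Nat.ModEq, Nat.modEq_iff_dvd, ← Int.natCast_dvd_natCast]
    rw [Nat.mod_eq_of_lt hb, Nat.cast_add, Nat.cast_sub hb.le]
    rw [show (j : ℤ) + ((p ^ n : ℕ) - (b : ℤ)) = ((p ^ n : ℕ) : ℤ) + -((b : ℤ) - j) by ring,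
      dvd_add_self_left, dvd_neg]
  simp only [hiff]
  split_ifs
  · rw [mul_left_comm, inv_mul_cancel₀ hP, mul_one]
  · rw [mul_zero, mul_zero]

/-- The logarithm of a product. -/
theorem iwasawaLog_prod {ι : Type*} (s : Finset ι) {α : ι → ℂ_[p]} {a : ℕ} (ha : 0 < a)
    (h : ∀ i ∈ s, ‖α i ^ a - 1‖ ≤ rad p) :
    iwasawaLog p (∏ i ∈ s, α i) = ∑ i ∈ s, iwasawaLog p (α i) := by
  obtain ⟨h1, h2⟩ := FA.GrossRegulator.plog_prod (p := p) s (fun i => α i ^ a) h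
  rw [prod_pow] at h1 h2
  rw [iwasawaLog_of_pow ha h1, h2, sum_div]
  exact sum_congr rfl fun i hi => (iwasawaLog_of_pow ha (h i hi)).symm

/-- The finite sum for the logarithm. -/
def logSum (n : ℕ) (η : ℂ_[p]) : ℂ_[p] :=
  ∑ b ∈ unitRes p n, η ^ b / ((b : ℂ_[p]) * (1 - η ^ p ^ n))

/-- The transformed logarithms. -/
def logNu (n : ℕ) (η : ℂ_[p]) (b : ℕ) : ℂ_[p] :=
  ((p ^ n : ℕ) : ℂ_[p])⁻¹ * ∑ ζ ∈ primeRoots p n, (ζ ^ b)⁻¹ * iwasawaLog p (1 - η * ζ)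

variable {η : ℂ_[p]}

theorem pow_ne_one_of_units (h1 : ∀ ζ : ℂ_[p], ∀ n, ζ ^ p ^ n = 1 → ‖1 - η * ζ‖ = 1) (n : ℕ) :
    η ^ p ^ n ≠ 1 := fun e => by
  have h := h1 η⁻¹ n (by rw [inv_pow, e, inv_one])
  rw [mul_inv_cancel₀ (fun e0 => by
    rw [e0, zero_pow (pow_ne_zero n hp.out.ne_zero)] at e; exact zero_ne_one e), sub_self,
    norm_zero] at h
  exact zero_ne_one h

theorem sum_unitRes_logNu {n : ℕ}
    (hn : n ≠ 0) {a : ℕ} (ha : 0 < a)
    (hd : ∀ ζ ∈ primeRoots p n, ‖(1 - η * ζ) ^ a - 1‖ ≤ rad p) :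
    ∑ b ∈ unitRes p n, logNu n η b =
      iwasawaLog p (1 - η) - (p : ℂ_[p])⁻¹ * iwasawaLog p (1 - η ^ p) := by
  obtain ⟨n, rfl⟩ := Nat.exists_eq_succ_of_ne_zero hn
  set L : ℂ_[p] → ℂ_[p] := fun ζ => iwasawaLog p (1 - η * ζ) with hL
  have hp0 : (p : ℂ_[p]) ≠ 0 := FA.GrossKoblitz.natCast_prime_ne_zero
  -- all the residues
  have hall : ∑ b ∈ range (p ^ (n + 1)), logNu (n + 1) η b = iwasawaLog p (1 - η) := by
    simp only [logNu, ← mul_sum]
    rw [sum_comm, sum_congr rfl (g := fun ζ => if ζ = 1 then ((p ^ (n + 1) : ℕ) : ℂ_[p]) * L ζ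
      else 0) fun ζ hζ => by
        rw [← sum_mul]
        split_ifs with h
        · subst h; simp [hL]
        · rw [sum_congr rfl fun b _ => (inv_pow ζ b).symm,
            geom_sum_eq (mt inv_eq_one.1 h), inv_pow, mem_primeRoots.1 hζ, inv_one, sub_self,
            zero_div, zero_mul],
      sum_ite_eq', if_pos (mem_primeRoots.2 (one_pow _)), ← mul_assoc, inv_mul_cancel₀
        (Nat.cast_ne_zero.2 (pow_ne_zero _ hp.out.ne_zero)), one_mul, hL]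
    simp only [mul_one]
  -- the multiples of `p`
  have hmult : ∑ b ∈ (range (p ^ (n + 1))).filter (p ∣ ·), logNu (n + 1) η b =
      (p : ℂ_[p])⁻¹ * iwasawaLog p (1 - η ^ p) := by
    rw [sum_nbij' (t := range (p ^ n)) (g := fun c => logNu (n + 1) η (p * c)) (fun b => b / p)
      (fun c => p * c) (fun b hb => mem_range.2 (Nat.div_lt_of_lt_mul (by
        rw [← pow_succ']; exact mem_range.1 (mem_filter.1 hb).1)))
      (fun c hc => mem_filter.2 ⟨mem_range.2 (by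
        rw [pow_succ']; exact Nat.mul_lt_mul_of_pos_left (mem_range.1 hc) hp.out.pos),
        dvd_mul_right p c⟩)
      (fun b hb => Nat.mul_div_cancel' (mem_filter.1 hb).2)
      (fun c _ => Nat.mul_div_cancel_left c hp.out.pos)
      fun b hb => by rw [Nat.mul_div_cancel' (mem_filter.1 hb).2]]
    simp only [logNu, ← mul_sum]
    rw [sum_comm, sum_congr rfl (g := fun ζ => if ζ ^ p = 1 then ((p ^ n : ℕ) : ℂ_[p]) * L ζ
      else 0) fun ζ hζ => by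
        rw [← sum_mul]
        simp only [pow_mul, ← inv_pow (ζ ^ p)]
        split_ifs with h
        · simp [h, hL]
        · rw [geom_sum_eq (mt inv_eq_one.1 h), inv_pow, ← pow_mul, ← pow_succ',
            mem_primeRoots.1 hζ, inv_one, sub_self, zero_div, zero_mul],
      ← sum_filter, ← mul_sum, ← mul_assoc, pow_succ' p, Nat.cast_mul, mul_inv, mul_assoc
        ((p : ℂ_[p])⁻¹), inv_mul_cancel₀ (Nat.cast_ne_zero.2 (pow_ne_zero _ hp.out.ne_zero)),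
      mul_one, ← iwasawaLog_prod _ ha fun ζ hζ => hd ζ (mem_filter.1 hζ).1]
    congr 2
    obtain ⟨z, hz⟩ := exists_primitive_pow (p := p) 1
    rw [pow_one] at hz
    have hset : (primeRoots p (n + 1)).filter (· ^ p = 1) =
        Polynomial.nthRootsFinset p (1 : ℂ_[p]) := by
      ext ζ
      rw [mem_filter, mem_primeRoots, Polynomial.mem_nthRootsFinset hp.out.pos]
      exact ⟨And.right, fun h => ⟨by rw [pow_succ', pow_mul, h, one_pow], h⟩⟩
    rw [hset, ← one_pow p, hz.pow_sub_pow_eq_prod_sub_mul 1 η hp.out.pos, one_pow]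
    exact prod_congr rfl fun ζ _ => by rw [mul_comm]
  rw [← hall, ← hmult, ← sum_filter_add_sum_filter_not (range (p ^ (n + 1))) (p ∣ ·)]
  exact (add_sub_cancel_left _ _).symm

/-- **The transformed logarithm is nearly `-η^b / (b (1 - η^(p^n)))`.** -/
theorem norm_logNu_add_le (h0 : ‖η‖ ≤ 1)
    (h1 : ∀ ζ : ℂ_[p], ∀ n, ζ ^ p ^ n = 1 → ‖1 - η * ζ‖ = 1) {n : ℕ} (hn : n ≠ 0) {a : ℕ}
    (ha : 0 < a) (hd : ∀ ζ ∈ primeRoots p n, ‖(1 - η * ζ) ^ a - 1‖ ≤ rad p) {b : ℕ}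
    (hb : b ∈ unitRes p n) :
    ‖logNu n η b + η ^ b / ((b : ℂ_[p]) * (1 - η ^ p ^ n))‖ ≤ ((p : ℝ)⁻¹) ^ n := by
  set P := p ^ n with hPdef
  have hbP : b < P := mem_range.1 (mem_filter.1 hb).1
  have hb0 : 0 < b := Nat.pos_of_ne_zero fun e => not_dvd_of_mem hb (e ▸ dvd_zero p)
  set M : ℕ → ℕ := fun N => a * p ^ N
  have hM : ∀ N, 0 < M N := fun N => Nat.mul_pos ha (pow_pos hp.out.pos N)
  have hne : ∀ ζ ∈ primeRoots p n, 1 - η * ζ ≠ 0 := fun ζ hζ =>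
    norm_ne_zero_iff.1 (by rw [h1 ζ n (mem_primeRoots.1 hζ)]; exact one_ne_zero)
  -- the geometric series
  have hgeom : ((P : ℕ) : ℂ_[p])⁻¹ * ∑ ζ ∈ primeRoots p n,
      (ζ ^ b)⁻¹ * (η * ζ * (1 - η * ζ)⁻¹) = η ^ b / (1 - η ^ P) := by
    have hP1 : 1 - η ^ P ≠ 0 := sub_ne_zero.2 (pow_ne_one_of_units h1 n).symm
    rw [sum_congr rfl (g := fun ζ => (1 - η ^ P)⁻¹ *
      ((ζ ^ b)⁻¹ * ∑ j ∈ Icc 1 P, η ^ j * ζ ^ j)) fun ζ hζ => by
        have hw : η * ζ ≠ 1 := fun e => hne ζ hζ (by rw [e, sub_self])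
        rw [show ∑ j ∈ Icc 1 P, η ^ j * ζ ^ j = η * ζ * ∑ j ∈ range P, (η * ζ) ^ j by
          rw [mul_sum]
          refine sum_nbij' (fun j => j - 1) (fun j => j + 1) ?_ ?_ ?_ ?_ ?_ <;>
            intro j hj <;> simp only [mem_Icc, mem_range] at hj ⊢ <;> first | omega | skip
          obtain ⟨i, rfl⟩ : ∃ i, j = i + 1 := ⟨j - 1, by omega⟩
          rw [Nat.add_sub_cancel, ← mul_pow, pow_succ'],
          geom_sum_eq hw, mul_pow, mem_primeRoots.1 hζ, mul_one]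
        field_simp [hne ζ hζ, sub_ne_zero.2 hw]
        ring,
      ← mul_sum, mul_left_comm, sum_primeRoots_pick hbP,
      show (Icc 1 P).filter (· % P = b) = {b} by
        ext j
        simp only [mem_filter, mem_Icc, Finset.mem_singleton]
        constructor
        · rintro ⟨⟨-, h2⟩, h3⟩
          rcases h2.lt_or_eq with h4 | h4
          · rwa [Nat.mod_eq_of_lt h4] at h3
          · rw [h4, Nat.mod_self] at h3; omega
        · rintro rfl; exact ⟨⟨hb0, hbP.le⟩, Nat.mod_eq_of_lt hbP⟩,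
      sum_singleton, inv_mul_eq_div]
  -- the approximants
  have key : ∀ N, ‖(P : ℂ_[p])⁻¹ * (∑ ζ ∈ primeRoots p n,
      (ζ ^ b)⁻¹ * (((1 - η * ζ) ^ M N - 1) / ((M N : ℕ) : ℂ_[p]))) +
      (b : ℂ_[p])⁻¹ * ((P : ℂ_[p])⁻¹ * ∑ ζ ∈ primeRoots p n,
        (ζ ^ b)⁻¹ * (η * ζ * (1 - η * ζ) ^ (M N - 1)))‖ ≤ ((p : ℝ)⁻¹) ^ n := fun N => by
    obtain ⟨m, hm⟩ : ∃ m, M N = m + 1 := ⟨M N - 1, by have := hM N; omega⟩
    rw [hm, Nat.add_sub_cancel]
    have hm0 : (m : ℂ_[p]) + 1 ≠ 0 := by exact_mod_cast Nat.succ_ne_zero m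
    have e1 : ∀ ζ : ℂ_[p], ((1 - η * ζ) ^ (m + 1) - 1) / ((m + 1 : ℕ) : ℂ_[p]) =
        ∑ i ∈ range (m + 1),
          ((m.choose i : ℕ) : ℂ_[p]) * (-η) ^ (i + 1) / ((i + 1 : ℕ) : ℂ_[p]) * ζ ^ (i + 1) := by
      intro ζ
      rw [show 1 - η * ζ = -η * ζ + 1 by ring, add_pow, sum_range_succ', pow_zero, one_pow,
        Nat.choose_zero_right, Nat.cast_one, mul_one, mul_one, add_sub_cancel_right, sum_div]
      refine sum_congr rfl fun i _ => ?_
      have h := congrArg (fun k : ℕ => (k : ℂ_[p])) (Nat.add_one_mul_choose_eq m i)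
      have hi : (i : ℂ_[p]) + 1 ≠ 0 := by exact_mod_cast Nat.succ_ne_zero i
      push_cast at h ⊢
      rw [one_pow, mul_one, mul_pow]
      field_simp
      linear_combination (η * η ^ i * ζ * ζ ^ i * (-1) ^ i) * h
    have e2 : ∀ ζ : ℂ_[p], η * ζ * (1 - η * ζ) ^ m =
        ∑ i ∈ range (m + 1), -(((m.choose i : ℕ) : ℂ_[p]) * (-η) ^ (i + 1)) * ζ ^ (i + 1) := by
      intro ζ
      rw [show 1 - η * ζ = -η * ζ + 1 by ring, add_pow, mul_sum]
      refine sum_congr rfl fun i _ => ?_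
      rw [one_pow, mul_one, mul_pow, pow_succ, pow_succ]
      ring
    simp only [e1, e2]
    have hre : ∀ c : ℕ → ℂ_[p], (P : ℂ_[p])⁻¹ * ∑ ζ ∈ primeRoots p n, (ζ ^ b)⁻¹ *
        ∑ i ∈ range (m + 1), c i * ζ ^ (i + 1) =
        ∑ i ∈ (range (m + 1)).filter (fun i => (i + 1) % P = b), c i := fun c => by
      have h := sum_primeRoots_pick (p := p) hbP
        ((range (m + 1)).map ⟨Nat.succ, Nat.succ_injective⟩)
        fun j => c (j - 1)
      simpa [P, Finset.sum_map, Finset.filter_map, Function.comp_def] using h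
    rw [hre, hre, mul_sum, ← sum_add_distrib]
    refine IsUltrametricDist.norm_sum_le_of_forall_le_of_nonneg (by positivity) fun i hi => ?_
    have hmod := (mem_filter.1 hi).2
    have hi1 : ¬ p ∣ i + 1 := fun h => not_dvd_of_mem hb (by
      rw [← hmod, Nat.dvd_mod_iff (dvd_pow_self p hn)]; exact h)
    have hb1 := FA.GrossKoblitz.norm_natCast_eq_one (p := p) (not_dvd_of_mem hb)
    have hi2 := FA.GrossKoblitz.norm_natCast_eq_one (p := p) hi1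
    set c := ((m.choose i : ℕ) : ℂ_[p]) * (-η) ^ (i + 1)
    have hc : ‖c‖ ≤ 1 := by
      rw [norm_mul, norm_pow, norm_neg]
      exact mul_le_one₀ (IsUltrametricDist.norm_natCast_le_one _ _) (by positivity)
        (pow_le_one₀ (norm_nonneg _) h0)
    rw [show c / ((i + 1 : ℕ) : ℂ_[p]) + (b : ℂ_[p])⁻¹ * -c =
      c * (((b : ℂ_[p]) - ((i + 1 : ℕ) : ℂ_[p])) / (((i + 1 : ℕ) : ℂ_[p]) * b)) by
      have hi3 : ((i + 1 : ℕ) : ℂ_[p]) ≠ 0 := Nat.cast_ne_zero.2 i.succ_ne_zero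
      have hb3 : (b : ℂ_[p]) ≠ 0 := Nat.cast_ne_zero.2 hb0.ne'
      field_simp; ring,
      norm_mul c, norm_div, norm_mul _ (b : ℂ_[p]), hi2, hb1, one_mul, div_one]
    refine (mul_le_of_le_one_left (norm_nonneg _) hc).trans ?_
    obtain ⟨k, hk⟩ : ∃ k, i + 1 = b + P * k :=
      ⟨(i + 1) / P, by rw [← hmod, Nat.mod_add_div]⟩
    rw [hk, Nat.cast_add, sub_add_cancel_left, norm_neg, Nat.cast_mul, norm_mul, hPdef,
      Nat.cast_pow, norm_prime_pow]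
    exact mul_le_of_le_one_right (by positivity) (IsUltrametricDist.norm_natCast_le_one _ _)
  -- the limit
  have t1 : ∀ ζ ∈ primeRoots p n, Tendsto (fun N => ((1 - η * ζ) ^ M N - 1) / ((M N : ℕ) : ℂ_[p]))
      atTop (𝓝 (iwasawaLog p (1 - η * ζ))) := fun ζ hζ => tendsto_pow_sub_one_div ha (hd ζ hζ)
  have t2 : ∀ ζ ∈ primeRoots p n, Tendsto (fun N => η * ζ * (1 - η * ζ) ^ (M N - 1)) atTop
      (𝓝 (η * ζ * (1 - η * ζ)⁻¹)) := fun ζ hζ => by
    have hone : Tendsto (fun N => (1 - η * ζ) ^ M N) atTop (𝓝 1) := by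
      have hM0 : Tendsto (fun N => ((M N : ℕ) : ℂ_[p])) atTop (𝓝 0) := by
        simpa [M] using (tendsto_prime_pow (p := p)).const_mul (a : ℂ_[p])
      have h := ((t1 ζ hζ).mul hM0).add_const (1 : ℂ_[p])
      rw [mul_zero, zero_add] at h
      refine h.congr fun N => ?_
      rw [div_mul_cancel₀ _ (Nat.cast_ne_zero.2 (hM N).ne'), sub_add_cancel]
    have h := (hone.mul_const (1 - η * ζ)⁻¹).const_mul (η * ζ)
    rw [one_mul] at h
    refine h.congr fun N => ?_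
    rw [mul_comm ((1 - η * ζ) ^ M N)]
    congr 1
    rw [inv_mul_eq_div, eq_comm, eq_div_iff (hne ζ hζ), ← pow_succ,
      Nat.sub_add_cancel (hM N)]
  have hlim := ((tendsto_finsetSum _ fun ζ hζ => (t1 ζ hζ).const_mul ((ζ ^ b)⁻¹)).const_mul
      (P : ℂ_[p])⁻¹).add
    (((tendsto_finsetSum _ fun ζ hζ => (t2 ζ hζ).const_mul ((ζ ^ b)⁻¹)).const_mul
      (P : ℂ_[p])⁻¹).const_mul (b : ℂ_[p])⁻¹)
  rw [hgeom] at hlim
  refine (le_of_tendsto' hlim.norm key).trans' (le_of_eq ?_)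
  rw [logNu, ← div_div, div_right_comm, div_eq_inv_mul _ (b : ℂ_[p])]

/-- **The logarithm as a limit of finite sums.** -/
theorem norm_logSum_le (halg : IsAlgebraic ℚ η) (h0 : ‖η‖ ≤ 1)
    (h1 : ∀ ζ : ℂ_[p], ∀ n, ζ ^ p ^ n = 1 → ‖1 - η * ζ‖ = 1) {n : ℕ} (hn : n ≠ 0) :
    ‖logSum n η + (iwasawaLog p (1 - η) - (p : ℂ_[p])⁻¹ * iwasawaLog p (1 - η ^ p))‖ ≤
      ((p : ℝ)⁻¹) ^ n := by
  have hex : ∀ ζ ∈ primeRoots p n, ∃ a : ℕ, 0 < a ∧ ‖(1 - η * ζ) ^ a - 1‖ ≤ rad p := fun ζ hζ => by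
    have hz : IsAlgebraic ℚ ζ := (IsIntegral.of_pow (R := ℚ) (pow_pos hp.out.pos n)
      (by rw [mem_primeRoots.1 hζ]; exact isIntegral_one)).isAlgebraic
    exact exists_pow_disc
      (isIntegral_one.sub (halg.isIntegral.mul hz.isIntegral)).isAlgebraic
      (h1 ζ n (mem_primeRoots.1 hζ))
  choose a ha hd using hex
  set A := ∏ ζ ∈ (primeRoots p n).attach, a ζ.1 ζ.2
  have hA : 0 < A := Finset.prod_pos fun ζ _ => ha ζ.1 ζ.2
  have hdA : ∀ ζ ∈ primeRoots p n, ‖(1 - η * ζ) ^ A - 1‖ ≤ rad p := fun ζ hζ => by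
    obtain ⟨k, hk⟩ := Finset.dvd_prod_of_mem (fun ξ : {x // x ∈ primeRoots p n} => a ξ.1 ξ.2)
      (mem_attach _ ⟨ζ, hζ⟩)
    rw [show A = a ζ hζ * k from hk, pow_mul]
    exact (FA.GrossRegulator.plog_pow (hd ζ hζ) k).1
  rw [← sum_unitRes_logNu hn hA hdA, logSum, ← sum_add_distrib]
  refine IsUltrametricDist.norm_sum_le_of_forall_le_of_nonneg (by positivity) fun b hb => ?_
  rw [add_comm]
  exact norm_logNu_add_le h0 h1 hn hA hdA hb

end FA.PadicDirichletL
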