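import Fermat.Agent.PadicDirichletL.LogSum
import Mathlib.NumberTheory.DirichletCharacter.GaussSum
import Mathlib.NumberTheory.LegendreSymbol.AddCharacter

/-!
# Leopoldt's formula

Writing `χ(x)` as a sum of additive characters, `R_n(-1)` is a combination of the sums for the
logarithms of the `1 - ψ(i)`, so
`branch 0 0 = -(1 - χ(p) / p) τ(χ) / f ∑ χ⁻¹(a) log (1 - ψ(-a))` (`branch_zero`).
-/

set_option autoImplicit false
set_option linter.unusedSectionVars false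
set_option linter.style.haveILetI false

noncomputable section

open Finset Filter Topology
open FA.GrossRegulator (iwasawaLog)
open scoped Classical

namespace FA.PadicDirichletL

variable {p : ℕ} [hp : Fact p.Prime] {f : ℕ} [NeZero f]

theorem gaussSum_inv_mul {χ : DirichletCharacter ℂ_[p] f} (hprim : χ.IsPrimitive)
    {ψ : AddChar (ZMod f) ℂ_[p]} (hψ : ψ.IsPrimitive) :
    gaussSum χ⁻¹ ψ * gaussSum χ ψ = χ⁻¹ (-1) * (f : ℂ_[p]) := by
  have hprim' : χ⁻¹.IsPrimitive := (DirichletCharacter.conductor_inv χ).trans hprim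
  have h : ∀ a, χ a * gaussSum χ⁻¹ ψ = ∑ i, χ⁻¹ i * ψ (i * a) := fun a => by
    have h1 := gaussSum_mulShift_of_isPrimitive ψ hprim' a
    rw [inv_inv] at h1
    rw [← h1, gaussSum]
    exact sum_congr rfl fun i _ => by rw [AddChar.mulShift_apply, mul_comm a]
  calc gaussSum χ⁻¹ ψ * gaussSum χ ψ = ∑ a, (χ a * gaussSum χ⁻¹ ψ) * ψ a := by
        rw [gaussSum.eq_def χ ψ, mul_sum]
        exact sum_congr rfl fun a _ => by ring
    _ = ∑ i, χ⁻¹ i * ∑ a, ψ (a * (i + 1)) := by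
        simp only [h, sum_mul, mul_sum]
        rw [sum_comm]
        refine sum_congr rfl fun i _ => sum_congr rfl fun a _ => ?_
        rw [mul_assoc, ← AddChar.map_add_eq_mul]
        congr 2
        ring
    _ = χ⁻¹ (-1) * (f : ℂ_[p]) := by
        simp only [AddChar.sum_mulShift _ hψ, add_eq_zero_iff_eq_neg, ZMod.card, Nat.cast_ite,
          Nat.cast_zero, mul_ite, mul_zero]
        rw [sum_ite_eq', if_pos (mem_univ _)]

theorem gaussSum_inv_ne_zero {χ : DirichletCharacter ℂ_[p] f} (hprim : χ.IsPrimitive)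
    {ψ : AddChar (ZMod f) ℂ_[p]} (hψ : ψ.IsPrimitive) : gaussSum χ⁻¹ ψ ≠ 0 := fun h => by
  have h1 := gaussSum_inv_mul hprim hψ
  rw [h, zero_mul] at h1
  exact mul_ne_zero (IsUnit.map _ isUnit_one.neg).ne_zero (Nat.cast_ne_zero.2 (NeZero.ne f)) h1.symm

theorem addChar_pow_card (ψ : AddChar (ZMod f) ℂ_[p]) (i : ZMod f) : ψ i ^ f = 1 := by
  rw [← AddChar.map_nsmul_eq_pow, nsmul_eq_mul, ZMod.natCast_self, zero_mul,
    AddChar.map_zero_eq_one]

theorem addChar_ne_one {ψ : AddChar (ZMod f) ℂ_[p]} (hψ : ψ.IsPrimitive) {i : ZMod f}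
    (hi : i ≠ 0) : ψ i ≠ 1 := fun h => hψ hi <| DFunLike.ext _ _ fun x => by
  rw [AddChar.mulShift_apply, AddChar.one_apply, ← ZMod.natCast_zmod_val x, mul_comm,
    ← nsmul_eq_mul, AddChar.map_nsmul_eq_pow, h, one_pow]

theorem norm_addChar (ψ : AddChar (ZMod f) ℂ_[p]) (i : ZMod f) : ‖ψ i‖ = 1 :=
  (pow_eq_one_iff_of_nonneg (norm_nonneg _) (NeZero.ne f)).1
    (by rw [← norm_pow, addChar_pow_card, norm_one])

theorem isAlgebraic_addChar (ψ : AddChar (ZMod f) ℂ_[p]) (i : ZMod f) : IsAlgebraic ℚ (ψ i) :=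
  (IsIntegral.of_pow (R := ℚ) (NeZero.pos f)
    (by rw [addChar_pow_card]; exact isIntegral_one)).isAlgebraic

theorem isUnit_prime_pow (hfp : f.Coprime p) (n : ℕ) : IsUnit ((p : ZMod f) ^ n) :=
  ((ZMod.isUnit_iff_coprime p f).2 hfp.symm).pow n

theorem prime_pow_mul_ne_zero (hfp : f.Coprime p) {i : ZMod f} (hi : i ≠ 0) (n : ℕ) :
    (p : ZMod f) ^ n * i ≠ 0 := fun h => hi ((isUnit_prime_pow hfp n).mul_right_eq_zero.1 h)

theorem addChar_pow_prime_pow (ψ : AddChar (ZMod f) ℂ_[p]) (i : ZMod f) (n : ℕ) :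
    ψ i ^ p ^ n = ψ ((p : ZMod f) ^ n * i) := by
  rw [← AddChar.map_nsmul_eq_pow, nsmul_eq_mul, Nat.cast_pow]

/-- `1 - ψ(i) ζ` is a unit. -/
theorem norm_one_sub_mul (hfp : f.Coprime p) {ψ : AddChar (ZMod f) ℂ_[p]} (hψ : ψ.IsPrimitive)
    {i : ZMod f} (hi : i ≠ 0) (ζ : ℂ_[p]) (n : ℕ) (hζ : ζ ^ p ^ n = 1) :
    ‖1 - ψ i * ζ‖ = 1 := by
  have hζ1 : ‖ζ‖ = 1 := (pow_eq_one_iff_of_nonneg (norm_nonneg _)
    (pow_ne_zero n hp.out.ne_zero)).1 (by rw [← norm_pow, hζ, norm_one])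
  have hw : ‖ψ i * ζ‖ = 1 := by rw [norm_mul, norm_addChar, hζ1, one_mul]
  refine le_antisymm ?_ (not_lt.1 fun h => ?_)
  · rw [sub_eq_add_neg]
    exact (IsUltrametricDist.norm_add_le_max _ _).trans
      (max_le norm_one.le (by rw [norm_neg, hw]))
  set θ := ψ ((p : ZMod f) ^ n * i)
  have hθ : ‖θ - 1‖ < 1 := by
    have h1 := norm_pow_sub_one_le hw (p ^ n)
    rw [mul_pow, hζ, mul_one, addChar_pow_prime_pow] at h1
    exact h1.trans_lt (by rwa [norm_sub_rev])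
  have hsum : ∑ c ∈ range f, θ ^ c = 0 := by
    rw [geom_sum_eq (addChar_ne_one hψ (prime_pow_mul_ne_zero hfp hi n)), addChar_pow_card,
      sub_self, zero_div]
  have hlt : ‖(f : ℂ_[p])‖ < 1 := by
    rw [show (f : ℂ_[p]) = -∑ c ∈ range f, (θ ^ c - 1) by
      rw [sum_sub_distrib, hsum, sum_const, card_range, nsmul_one, zero_sub, neg_neg], norm_neg]
    refine (IsUltrametricDist.norm_sum_le_of_forall_le_of_nonneg (norm_nonneg (θ - 1))
      fun c _ => ?_).trans_lt hθ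
    exact norm_pow_sub_one_le (norm_addChar ψ _) c
  exact hlt.ne (norm_level hfp)

/-- `∑ c w^c = f / (w - 1)`. -/
theorem sum_natCast_mul_pow (w : ℂ_[p]) : ∀ N : ℕ,
    (w - 1) * ∑ c ∈ range N, (c : ℂ_[p]) * w ^ c = (N : ℂ_[p]) * w ^ N - w * ∑ c ∈ range N, w ^ c
  | 0 => by simp
  | N + 1 => by
    rw [sum_range_succ, sum_range_succ, mul_add, sum_natCast_mul_pow w N, Nat.cast_succ]
    ring

theorem riemannSum_neg_one (hfp : f.Coprime p) {χ : DirichletCharacter ℂ_[p] f}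
    (hprim : χ.IsPrimitive) (hf : 1 < f) {ψ : AddChar (ZMod f) ℂ_[p]} (hψ : ψ.IsPrimitive)
    (n : ℕ) :
    gaussSum χ⁻¹ ψ * riemannSum χ n (-1) = -∑ i, χ⁻¹ i * logSum n (ψ i) := by
  haveI : Fact (1 < f) := ⟨hf⟩
  have hprim' : χ⁻¹.IsPrimitive := (DirichletCharacter.conductor_inv χ).trans hprim
  have hf0 : (f : ℂ_[p]) ≠ 0 := Nat.cast_ne_zero.2 (NeZero.ne f)
  have key : ∀ b, gaussSum χ⁻¹ ψ * nu χ n b =
      -∑ i, χ⁻¹ i * (ψ i ^ b / (1 - ψ i ^ p ^ n)) := fun b => by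
    rw [nu, mul_left_comm, mul_sum, mul_sum,
      sum_congr rfl fun c (_ : c ∈ range f) => show (f : ℂ_[p])⁻¹ *
          (gaussSum χ⁻¹ ψ * ((c : ℂ_[p]) * χ ((b + p ^ n * c : ℕ) : ZMod f))) =
          ∑ i, χ⁻¹ i * ψ i ^ b * ((f : ℂ_[p])⁻¹ * ((c : ℂ_[p]) * (ψ i ^ p ^ n) ^ c)) by
        have h1 := gaussSum_mulShift_of_isPrimitive ψ hprim' ((b + p ^ n * c : ℕ) : ZMod f)
        rw [inv_inv] at h1
        rw [mul_left_comm (gaussSum χ⁻¹ ψ), mul_comm (gaussSum χ⁻¹ ψ), ← h1, gaussSum, mul_sum,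
          mul_sum]
        refine sum_congr rfl fun i _ => ?_
        rw [AddChar.mulShift_apply, show ψ (((b + p ^ n * c : ℕ) : ZMod f) * i) =
          ψ i ^ (b + p ^ n * c) by rw [← nsmul_eq_mul, AddChar.map_nsmul_eq_pow],
          pow_add, pow_mul]
        ring,
      sum_comm, ← sum_neg_distrib]
    refine sum_congr rfl fun i _ => ?_
    rcases eq_or_ne i 0 with rfl | hi
    · simp [MulChar.map_zero]
    rw [← mul_sum, ← mul_sum]
    set w := ψ i ^ p ^ n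
    have hw : w ≠ 1 := by
      rw [show w = _ from addChar_pow_prime_pow ψ i n]
      exact addChar_ne_one hψ (prime_pow_mul_ne_zero hfp hi n)
    have hwf : w ^ f = 1 := by rw [← pow_mul, mul_comm, pow_mul, addChar_pow_card, one_pow]
    have h2 := sum_natCast_mul_pow w f
    rw [geom_sum_eq hw, hwf, sub_self, zero_div, mul_zero, sub_zero, mul_one] at h2
    rw [eq_div_of_mul_eq (sub_ne_zero.2 hw) ((mul_comm _ _).trans h2)]
    have hw1 : 1 - w ≠ 0 := sub_ne_zero.2 hw.symm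
    have hw2 : w - 1 ≠ 0 := sub_ne_zero.2 hw
    field_simp
    ring
  rw [riemannSum, mul_sum, sum_congr rfl fun b _ => by rw [mul_left_comm, key b, mul_neg, mul_sum],
    sum_neg_distrib, sum_comm]
  refine congrArg Neg.neg (sum_congr rfl fun i _ => ?_)
  rw [logSum, mul_sum]
  refine sum_congr rfl fun b _ => ?_
  rw [zpow_neg_one, ← div_div]
  ring

theorem tendsto_logSum (hfp : f.Coprime p) {ψ : AddChar (ZMod f) ℂ_[p]} (hψ : ψ.IsPrimitive)
    {i : ZMod f} (hi : i ≠ 0) :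
    Tendsto (fun n => logSum n (ψ i)) atTop (𝓝 ((p : ℂ_[p])⁻¹ *
      iwasawaLog p (1 - ψ ((p : ZMod f) * i)) - iwasawaLog p (1 - ψ i))) := by
  refine tendsto_iff_norm_sub_tendsto_zero.2 (squeeze_zero' (Eventually.of_forall fun n =>
    norm_nonneg _) ?_ (tendsto_inv_prime_pow (p := p)))
  filter_upwards [eventually_ne_atTop 0] with n hn
  have h := norm_logSum_le (isAlgebraic_addChar ψ i) (norm_addChar ψ i).le
    (norm_one_sub_mul hfp hψ hi) hn
  rw [show ψ i ^ p = ψ ((p : ZMod f) * i) by simpa using addChar_pow_prime_pow ψ i 1] at h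
  rwa [show ∀ A B C : ℂ_[p], C - (A - B) = C + (B - A) from fun A B C => by ring]

/-- **Leopoldt's formula.** -/
theorem branch_zero (hfp : f.Coprime p) {χ : DirichletCharacter ℂ_[p] f} (hne : χ ≠ 1)
    (hprim : χ.IsPrimitive) (hf : 1 < f) {ψ : AddChar (ZMod f) ℂ_[p]} (hψ : ψ.IsPrimitive) :
    branch χ 0 0 = -(1 - χ p / (p : ℂ_[p])) * (gaussSum χ ψ / (f : ℂ_[p])) *
      ∑ a, χ⁻¹ a * iwasawaLog p (1 - ψ (-a)) := by
  haveI : Fact (1 < f) := ⟨hf⟩
  obtain ⟨w, hw⟩ := (ZMod.isUnit_iff_coprime p f).2 hfp.symm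
  have hshift : ∑ i, χ⁻¹ i * iwasawaLog p (1 - ψ ((p : ZMod f) * i)) =
      χ p * ∑ i, χ⁻¹ i * iwasawaLog p (1 - ψ i) := by
    rw [mul_sum]
    refine Fintype.sum_bijective (fun i => (p : ZMod f) * i)
      (by rw [← hw]; exact Units.mulLeft_bijective w) _ _ fun i => ?_
    rw [← mul_assoc]
    congr 1
    rw [map_mul, ← mul_assoc, ← MulChar.mul_apply, mul_inv_cancel,
      MulChar.one_apply (hw ▸ w.isUnit), one_mul]
  have hneg : ∑ i, χ⁻¹ i * iwasawaLog p (1 - ψ i) =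
      χ⁻¹ (-1) * ∑ a, χ⁻¹ a * iwasawaLog p (1 - ψ (-a)) := by
    rw [mul_sum]
    refine Fintype.sum_bijective (fun i : ZMod f => -i) neg_involutive.bijective _ _ fun i => ?_
    rw [neg_neg, ← mul_assoc, ← map_mul, neg_one_mul, neg_neg]
  have h1 := (tendsto_riemannSum_branch hfp hne 0 0).const_mul (gaussSum χ⁻¹ ψ)
  simp only [mul_zero, Nat.add_zero, Nat.cast_zero, zero_sub,
    riemannSum_neg_one hfp hprim hf hψ] at h1
  have h2 := (tendsto_finsetSum (univ : Finset (ZMod f)) fun i _ =>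
    show Tendsto (fun n => χ⁻¹ i * logSum n (ψ i)) atTop (𝓝 (χ⁻¹ i * ((p : ℂ_[p])⁻¹ *
      iwasawaLog p (1 - ψ ((p : ZMod f) * i)) - iwasawaLog p (1 - ψ i)))) by
      rcases eq_or_ne i 0 with rfl | hi
      · simp [MulChar.map_zero]
      · exact (tendsto_logSum hfp hψ hi).const_mul _).neg
  have h3 := tendsto_nhds_unique h1 h2
  simp only [mul_sub, sum_sub_distrib, mul_left_comm _ ((p : ℂ_[p])⁻¹), ← mul_sum, hshift, hneg]
    at h3
  have hτ := gaussSum_inv_mul hprim hψ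
  have hτ0 := gaussSum_inv_ne_zero hprim hψ
  have hf0 : (f : ℂ_[p]) ≠ 0 := Nat.cast_ne_zero.2 (NeZero.ne f)
  set S := ∑ a, χ⁻¹ a * iwasawaLog p (1 - ψ (-a))
  set c := χ⁻¹ (-1)
  refine mul_left_cancel₀ hτ0 ?_
  rw [show ∀ A : ℂ_[p], gaussSum χ⁻¹ ψ * (A * (gaussSum χ ψ / f) * S) =
    A * (gaussSum χ⁻¹ ψ * gaussSum χ ψ / f) * S from fun A => by ring, hτ,
    mul_div_cancel_right₀ _ hf0]
  linear_combination -h3

end FA.PadicDirichletL
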